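import Fermat.Agent.S26.Curves.Defs

/-!
# S26 / P8 CURVES, leaf L9 = G4a : transcendence degree of integral `K`-schemes: affine bridge, dominant maps

* `g4_trdegK_eq_of_isAffineOpen` : `trdegK f = trdeg_K Γ(X, U)` for a nonempty affine open `U`
  (`K(X) = Frac Γ(X, U)`: `functionField_isFractionRing_of_isAffineOpen`; a domain and its fraction field have the
  same transcendence degree; the two `K`-algebra structures are compatible: germ ∘ restriction = germ).
* `g4_trdegK_le_of_isDominant` : `φ : X → Y` dominant, `X`, `Y` integral `K`-schemes ⟹ `trdegK y ≤ trdegK (φ ≫ y)`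
  (`φ` maps the generic point to the generic point; the stalk map `K(Y) → K(X)` is a `K`-algebra map of fields,
  hence injective).
-/

set_option autoImplicit false

universe u

open AlgebraicGeometry CategoryTheory CategoryTheory.Limits

namespace Fermat.Agent.S26.Curves

theorem g4_kToFunctionField_eq {K : Type u} [Field K] {X : Scheme.{u}} (f : X ⟶ Spec (.of K))
    [IsIntegral X] (U : X.Opens) [Nonempty U] :
    kToFunctionField f = (X.germToFunctionField U).hom.comp (kToSections f U) := by
  have h : X.presheaf.map (homOfLE (le_top : U ≤ ⊤)).op ≫ X.germToFunctionField U =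
      X.presheaf.germ ⊤ (genericPoint X) trivial :=
    X.presheaf.germ_res (homOfLE (le_top : U ≤ ⊤)) (genericPoint X) _
  simp only [kToFunctionField, kToSections, ← h, CommRingCat.hom_comp, RingHom.comp_assoc]

theorem g4_trdegK_eq_of_isAffineOpen {K : Type u} [Field K] {X : Scheme.{u}} (f : X ⟶ Spec (.of K))
    [IsIntegral X] (U : X.Opens) (hU : IsAffineOpen U) (hne : (U : Set X).Nonempty) :
    trdegK f = (letI := (kToSections f U).toAlgebra; Algebra.trdeg K Γ(X, U)) := by
  have : Nonempty U := hne.to_subtype
  letI := (kToSections f U).toAlgebra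
  letI := (kToFunctionField f).toAlgebra
  have hfr : IsFractionRing Γ(X, U) X.functionField :=
    functionField_isFractionRing_of_isAffineOpen X U hU
  have htower : IsScalarTower K Γ(X, U) X.functionField :=
    IsScalarTower.of_algebraMap_eq (fun c => by
      show kToFunctionField f c = (X.germToFunctionField U).hom (kToSections f U c)
      rw [g4_kToFunctionField_eq f U]; rfl)
  have halg : Algebra.IsAlgebraic Γ(X, U) X.functionField :=
    IsLocalization.isAlgebraic _ (nonZeroDivisors Γ(X, U))
  have hf1 : FaithfulSMul K Γ(X, U) :=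
    (faithfulSMul_iff_algebraMap_injective K Γ(X, U)).mpr (algebraMap K Γ(X, U)).injective
  have hf2 : FaithfulSMul Γ(X, U) X.functionField :=
    (faithfulSMul_iff_algebraMap_injective _ _).mpr (IsFractionRing.injective _ _)
  have h := trdeg_add_eq K Γ(X, U) (A := X.functionField)
  rw [trdeg_eq_zero (R := Γ(X, U)) (A := X.functionField), add_zero] at h
  exact h.symm


/-- A dominant morphism of irreducible schemes maps the generic point to the generic point. -/
theorem g4_map_genericPoint {X Y : Scheme.{u}} (φ : X ⟶ Y) [IsIntegral X] [IsIntegral Y]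
    [IsDominant φ] : φ (genericPoint X) = genericPoint Y := by
  apply ((genericPoint_spec Y).eq _).symm
  have h := (genericPoint_spec X).image φ.continuous
  rwa [Set.image_univ, φ.denseRange.closure_range] at h

theorem g4_trdegK_le_of_isDominant {K : Type u} [Field K] {X Y : Scheme.{u}} (φ : X ⟶ Y)
    (y : Y ⟶ Spec (.of K)) [IsIntegral X] [IsIntegral Y] [IsDominant φ] :
    trdegK y ≤ trdegK (φ ≫ y) := by
  have hgen : φ (genericPoint X) = genericPoint Y := g4_map_genericPoint φ
  have hsp : φ (genericPoint X) ⤳ genericPoint Y := by rw [hgen]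
  let ψ : Y.functionField ⟶ X.functionField :=
    Y.presheaf.stalkSpecializes hsp ≫ φ.stalkMap (genericPoint X)
  have key : (Scheme.ΓSpecIso (.of K)).inv ≫ y.appTop ≫
      Y.presheaf.germ ⊤ (genericPoint Y) trivial ≫ ψ =
      (Scheme.ΓSpecIso (.of K)).inv ≫ (φ ≫ y).appTop ≫
        X.presheaf.germ ⊤ (genericPoint X) trivial := by
    have e1 : Y.presheaf.germ ⊤ (genericPoint Y) trivial ≫ Y.presheaf.stalkSpecializes hsp =
        Y.presheaf.germ ⊤ (φ (genericPoint X)) trivial :=
      Y.presheaf.germ_stalkSpecializes _ hsp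
    have e2 : Y.presheaf.germ ⊤ (φ (genericPoint X)) trivial ≫ φ.stalkMap (genericPoint X) =
        φ.app ⊤ ≫ X.presheaf.germ (φ ⁻¹ᵁ ⊤) (genericPoint X) trivial :=
      φ.germ_stalkMap ⊤ (genericPoint X) trivial
    have e3 : Y.presheaf.germ ⊤ (genericPoint Y) trivial ≫ ψ =
        φ.appTop ≫ X.presheaf.germ ⊤ (genericPoint X) trivial := by
      show _ ≫ (_ ≫ _) = _
      rw [← Category.assoc, e1, e2]
      rfl
    have e4 : y.appTop ≫ Y.presheaf.germ ⊤ (genericPoint Y) trivial ≫ ψ =
        (φ ≫ y).appTop ≫ X.presheaf.germ ⊤ (genericPoint X) trivial := by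
      rw [Scheme.Hom.comp_appTop, Category.assoc]
      exact congrArg (y.appTop ≫ ·) e3
    exact congrArg ((Scheme.ΓSpecIso (.of K)).inv ≫ ·) e4
  have hψ : ψ.hom.comp (kToFunctionField y) = kToFunctionField (φ ≫ y) := by
    have := congrArg CommRingCat.Hom.hom key
    simpa only [kToFunctionField, CommRingCat.hom_comp, RingHom.comp_assoc] using this
  letI := (kToFunctionField y).toAlgebra
  letI := (kToFunctionField (φ ≫ y)).toAlgebra
  let ψ' : Y.functionField →ₐ[K] X.functionField :=
    { ψ.hom with
      commutes' := fun c => congrFun (congrArg DFunLike.coe hψ) c }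
  exact trdeg_le_of_injective ψ' (ψ.hom.injective)

end Fermat.Agent.S26.Curves
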