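import Fermat.Agent.S26.Curves.C3
import Fermat.Agent.S26.Curves.G4a

/-!
# S26 / P8 CURVES, leaf L6 = G1 : curve selection on a scheme

`X` an integral scheme, locally of finite type over an algebraically closed field `K`, of transcendence degree
`≥ 1`; `x` a closed point; `Z` a closed subset, `Z ≠ univ`.  Then there is an integral closed subscheme
`j : Γ → X` with `x ∈ range j`, `range j ⊄ Z`, `trdegK (j ≫ f) = 1`.

Proof.  Affine open `U = Spec R ∋ x`; `R` f.g. `K`-domain, `trdeg_K R = trdegK f` (bridge `g4_trdegK_eq_of_isAffineOpen`); `m` := the maximal ideal of `x`; `Z ∩ U ≠ U` (`U` is dense), so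
there is `0 ≠ h ∈ R` vanishing on `Z ∩ U`.  Leaf C3 (`c3_exists_prime_trdeg_one`; this file imports the C3 and G4a skeletons, do not reprove them) gives `p ≤ m`, `h ∉ p`, `trdeg_K (R ⧸ p) = 1`.
`Γ` := scheme-theoretic image (`Scheme.Hom.image`) of `Spec (R ⧸ p) → U → X`; it is integral, `j = imageι` is a
closed immersion, `Spec (R ⧸ p) → Γ` is dominant and an open immersion onto `Γ ∩ U`, so `K(Γ) = Frac (R ⧸ p)`.
-/

set_option autoImplicit false

universe u

open AlgebraicGeometry CategoryTheory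

namespace Fermat.Agent.S26.Curves

/-- `kToSections` is of finite type on affine opens. -/
theorem g1_finiteType_kToSections {K : Type u} [Field K] {X : Scheme.{u}}
    (f : X ⟶ Spec (.of K)) [LocallyOfFiniteType f] {U : X.Opens} (hU : IsAffineOpen U) :
    (kToSections f U).FiniteType := by
  have h1 := f.finiteType_appLE (isAffineOpen_top (Spec (CommRingCat.of K))) hU
    (show U ≤ f ⁻¹ᵁ ⊤ from le_top)
  have h2 : (Scheme.ΓSpecIso (CommRingCat.of K)).inv.hom.FiniteType :=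
    RingHom.FiniteType.of_surjective _
      (ConcreteCategory.bijective_of_isIso (Scheme.ΓSpecIso (CommRingCat.of K)).inv).surjective
  exact h1.comp h2

/-- A nonzero section on an affine open `U` of an irreducible scheme whose non-vanishing locus
misses a given proper closed subset. -/
theorem g1_exists_section {X : Scheme.{u}} [IsIntegral X] {U : X.Opens} (hU : IsAffineOpen U)
    (hne : (U : Set X).Nonempty) (Z : Set X) (hZ : IsClosed Z) (hZ' : Z ≠ Set.univ) :
    ∃ h : Γ(X, U), h ≠ 0 ∧ ∀ y ∈ X.basicOpen h, y ∉ Z := by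
  have hZc : (Zᶜ : Set X).Nonempty := Set.nonempty_compl.mpr hZ'
  obtain ⟨y, hyU, hyZ⟩ := nonempty_preirreducible_inter U.isOpen hZ.isOpen_compl hne hZc
  obtain ⟨h, hle, hy⟩ := hU.exists_basicOpen_le (V := ⟨Zᶜ, hZ.isOpen_compl⟩) ⟨y, hyZ⟩ hyU
  refine ⟨h, ?_, fun z hz => hle hz⟩
  rintro rfl
  simp at hy

/-- The immersion `Spec (Γ(X, U) ⧸ p) ⟶ U ⟶ X`. -/
noncomputable def g1_phi {X : Scheme.{u}} {U : X.Opens} (hU : IsAffineOpen U) (p : Ideal Γ(X, U)) :
    Spec (CommRingCat.of (Γ(X, U) ⧸ p)) ⟶ X :=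
  Spec.map (CommRingCat.ofHom (Ideal.Quotient.mk p)) ≫ hU.fromSpec

instance g1_isImmersion_phi {X : Scheme.{u}} {U : X.Opens} (hU : IsAffineOpen U)
    (p : Ideal Γ(X, U)) : IsImmersion (g1_phi hU p) := by
  unfold g1_phi
  infer_instance

theorem g1_isReduced_image {X Y : Scheme.{u}} (φ : Y ⟶ X) [QuasiCompact φ] [IsReduced Y] :
    IsReduced φ.image := by
  have key : ∀ W : X.affineOpens,
      IsReduced (Spec (CommRingCat.of (Γ(X, W) ⧸ φ.ker.ideal W))) := by
    intro W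
    have hrad : (φ.ker.ideal W).IsRadical := by
      rw [Scheme.Hom.ker_apply]
      intro a ha
      obtain ⟨n, hn⟩ := ha
      rw [RingHom.mem_ker, map_pow] at hn
      exact RingHom.mem_ker.mpr (IsNilpotent.eq_zero ⟨n, hn⟩)
    have := (Ideal.isRadical_iff_quotient_reduced _).mp hrad
    infer_instance
  exact @IsReduced.of_openCover _ φ.ker.subschemeCover.openCover key

theorem g1_irreducibleSpace_image {X Y : Scheme.{u}} (φ : Y ⟶ X) [QuasiCompact φ]
    [IrreducibleSpace Y] : IrreducibleSpace φ.image := by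
  have h1 : IsIrreducible (Set.range φ.toImage) := by
    have := (IrreducibleSpace.isIrreducible_univ Y).image φ.toImage
      φ.toImage.continuous.continuousOn
    rwa [Set.image_univ] at this
  have h2 : closure (Set.range φ.toImage) = Set.univ := φ.toImage.denseRange.closure_range
  have h3 : IsIrreducible (Set.univ : Set φ.image) := h2 ▸ h1.closure
  exact (irreducibleSpace_def _).mpr h3

theorem g1_isIntegral_image {X Y : Scheme.{u}} (φ : Y ⟶ X) [QuasiCompact φ] [IsIntegral Y] :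
    IsIntegral φ.image := by
  have := g1_isReduced_image φ
  have := g1_irreducibleSpace_image φ
  exact isIntegral_of_irreducibleSpace_of_isReduced _

theorem g1_mem_range_imageι {X : Scheme.{u}} {U : X.Opens} (hU : IsAffineOpen U)
    (p : Ideal Γ(X, U)) (q : PrimeSpectrum Γ(X, U)) (hq : p ≤ q.asIdeal) :
    hU.fromSpec q ∈ Set.range (g1_phi hU p).imageι := by
  have hq' : q ∈ Set.range (PrimeSpectrum.comap (Ideal.Quotient.mk p)) := by
    rw [range_comap_of_surjective _ _ Ideal.Quotient.mk_surjective, Ideal.mk_ker]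
    exact hq
  obtain ⟨q', rfl⟩ := hq'
  let q'' : ↥(Spec (CommRingCat.of (Γ(X, U) ⧸ p))) := q'
  refine ⟨(g1_phi hU p).toImage q'', ?_⟩
  rw [← Scheme.Hom.comp_apply, Scheme.Hom.toImage_imageι]
  rfl


theorem g1_map_comp_appIso {X Y : Scheme.{u}} (ψ : X ⟶ Y) [IsOpenImmersion ψ] :
    Y.presheaf.map (homOfLE (le_top : ψ ''ᵁ ⊤ ≤ ⊤)).op ≫ (ψ.appIso ⊤).hom = ψ.appTop := by
  rw [Scheme.Hom.appIso_hom', Scheme.Hom.map_appLE]
  simp only [Scheme.Hom.appTop, Scheme.Hom.appLE]
  exact (congrArg (ψ.app ⊤ ≫ ·) (X.presheaf.map_id _)).trans (Category.comp_id _)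

set_option backward.isDefEq.respectTransparency false in
theorem g1_fromSpec_appTop {X : Scheme.{u}} {U : X.Opens} (hU : IsAffineOpen U) :
    hU.fromSpec.appTop ≫ (Scheme.ΓSpecIso Γ(X, U)).hom =
      X.presheaf.map (homOfLE (le_top : U ≤ ⊤)).op := by
  rw [Scheme.Hom.appTop, hU.fromSpec_app_of_le ⊤ le_top, Category.assoc, Category.assoc]
  have h1 : (Spec Γ(X, U)).presheaf.map (homOfLE (le_top : hU.fromSpec ⁻¹ᵁ ⊤ ≤ ⊤)).op = 𝟙 _ :=
    (Spec Γ(X, U)).presheaf.map_id _
  rw [h1, Category.id_comp, Iso.inv_hom_id, Category.comp_id]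

set_option backward.isDefEq.respectTransparency false in
theorem g1_phi_appTop {X : Scheme.{u}} {U : X.Opens} (hU : IsAffineOpen U) (p : Ideal Γ(X, U)) :
    (g1_phi hU p).appTop ≫ (Scheme.ΓSpecIso (CommRingCat.of (Γ(X, U) ⧸ p))).hom =
    X.presheaf.map (homOfLE (le_top : U ≤ ⊤)).op ≫ CommRingCat.ofHom (Ideal.Quotient.mk p) := by
  unfold g1_phi
  rw [Scheme.Hom.comp_appTop, Category.assoc, Scheme.ΓSpecIso_naturality, ← Category.assoc]
  exact congrArg (· ≫ CommRingCat.ofHom (Ideal.Quotient.mk p)) (g1_fromSpec_appTop hU)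

theorem g1_key {X : Scheme.{u}} {U : X.Opens} (hU : IsAffineOpen U) (p : Ideal Γ(X, U))
    [QuasiCompact (g1_phi hU p)] :
    (g1_phi hU p).imageι.appTop ≫
      (g1_phi hU p).image.presheaf.map (homOfLE (le_top : (g1_phi hU p).toImage ''ᵁ ⊤ ≤ ⊤)).op ≫
      ((g1_phi hU p).toImage.appIso ⊤).hom ≫
      (Scheme.ΓSpecIso (CommRingCat.of (Γ(X, U) ⧸ p))).hom =
    X.presheaf.map (homOfLE (le_top : U ≤ ⊤)).op ≫ CommRingCat.ofHom (Ideal.Quotient.mk p) := by
  rw [← g1_phi_appTop hU p, ← Category.assoc ((g1_phi hU p).image.presheaf.map _),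
    g1_map_comp_appIso, ← Category.assoc, ← Scheme.Hom.comp_appTop, Scheme.Hom.toImage_imageι]


theorem g1_trdegK_image {K : Type u} [Field K] {X : Scheme.{u}} (f : X ⟶ Spec (.of K))
    {U : X.Opens} (hU : IsAffineOpen U) (p : Ideal Γ(X, U)) [p.IsPrime]
    [QuasiCompact (g1_phi hU p)] [IsIntegral (g1_phi hU p).image] :
    trdegK ((g1_phi hU p).imageι ≫ f) =
      (letI := (kToSections f U).toAlgebra; Algebra.trdeg K (Γ(X, U) ⧸ p)) := by
  have hV : IsAffineOpen ((g1_phi hU p).toImage ''ᵁ ⊤) :=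
    (isAffineOpen_top _).image_of_isOpenImmersion (g1_phi hU p).toImage
  have hVne : (((g1_phi hU p).toImage ''ᵁ ⊤ : (g1_phi hU p).image.Opens) :
      Set (g1_phi hU p).image).Nonempty := by
    obtain ⟨q0⟩ : Nonempty (PrimeSpectrum (Γ(X, U) ⧸ p)) := inferInstance
    let q1 : ↥(Spec (CommRingCat.of (Γ(X, U) ⧸ p))) := q0
    exact ⟨(g1_phi hU p).toImage q1, q1, trivial, rfl⟩
  rw [g4_trdegK_eq_of_isAffineOpen ((g1_phi hU p).imageι ≫ f) _ hV hVne]
  let _ := (kToSections ((g1_phi hU p).imageι ≫ f) ((g1_phi hU p).toImage ''ᵁ ⊤)).toAlgebra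
  let _ := (kToSections f U).toAlgebra
  let e0 : Γ((g1_phi hU p).image, (g1_phi hU p).toImage ''ᵁ ⊤) ≅
      CommRingCat.of (Γ(X, U) ⧸ p) :=
    (g1_phi hU p).toImage.appIso ⊤ ≪≫ Scheme.ΓSpecIso _
  have hcomm : ∀ c : K,
      e0.hom (kToSections ((g1_phi hU p).imageι ≫ f) ((g1_phi hU p).toImage ''ᵁ ⊤) c) =
        Ideal.Quotient.mk p (kToSections f U c) := by
    intro c
    have key := ConcreteCategory.congr_hom (g1_key hU p)
      (f.appTop ((Scheme.ΓSpecIso (CommRingCat.of K)).inv c))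
    simp only [kToSections, Scheme.Hom.comp_appTop, CommRingCat.hom_comp, RingHom.comp_apply,
      e0, Iso.trans_hom] at key ⊢
    exact key
  let e : Γ((g1_phi hU p).image, (g1_phi hU p).toImage ''ᵁ ⊤) ≃ₐ[K] (Γ(X, U) ⧸ p) :=
    { e0.commRingCatIsoToRingEquiv with commutes' := hcomm }
  exact e.trdeg_eq

theorem g1_exists_curve {K : Type u} [Field K] [IsAlgClosed K] {X : Scheme.{u}}
    (f : X ⟶ Spec (.of K)) [LocallyOfFiniteType f] [IsIntegral X] (hd : 1 ≤ trdegK f)
    (x : X) (hx : IsClosed ({x} : Set X)) (Z : Set X) (hZ : IsClosed Z) (hZ' : Z ≠ Set.univ) :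
    ∃ (Γ : Scheme.{u}) (j : Γ ⟶ X) (_ : IsIntegral Γ), IsClosedImmersion j ∧ x ∈ Set.range j ∧
      ¬ Set.range j ⊆ Z ∧ trdegK (j ≫ f) = 1 := by
  -- an affine open neighbourhood of `x`
  obtain ⟨U, hU, hxU, -⟩ := exists_isAffineOpen_mem_and_subset (x := x) (U := ⊤) trivial
  have hne : (U : Set X).Nonempty := ⟨x, hxU⟩
  have : Nonempty U := ⟨⟨x, hxU⟩⟩
  have : IsLocallyNoetherian X := LocallyOfFiniteType.isLocallyNoetherian f
  have : IsNoetherianRing Γ(X, U) := IsLocallyNoetherian.component_noetherian ⟨U, hU⟩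
  -- the coordinate ring, a finitely generated `K`-domain of transcendence degree `≥ 1`
  let _ : Algebra K Γ(X, U) := (kToSections f U).toAlgebra
  have hft : Algebra.FiniteType K Γ(X, U) := g1_finiteType_kToSections f hU
  have htr : trdegK f = Algebra.trdeg K Γ(X, U) := g4_trdegK_eq_of_isAffineOpen f U hU hne
  have hd' : 1 ≤ Algebra.trdeg K Γ(X, U) := htr ▸ hd
  have hmax : (hU.primeIdealOf ⟨x, hxU⟩).asIdeal.IsMaximal :=
    hU.primeIdealOf_isMaximal_of_isClosed ⟨x, hxU⟩ hx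
  -- a nonzero function vanishing on `Z ∩ U`, and the curve selection C3
  obtain ⟨h, hh0, hhZ⟩ := g1_exists_section hU hne Z hZ hZ'
  obtain ⟨p, hp, hpm, hhp, htrp⟩ :=
    c3_exists_prime_trdeg_one K Γ(X, U) hd' (hU.primeIdealOf ⟨x, hxU⟩).asIdeal h hh0
  -- the curve: scheme-theoretic image of `Spec (Γ(X, U) ⧸ p) ⟶ X`
  have hint : IsIntegral (g1_phi hU p).image := g1_isIntegral_image (g1_phi hU p)
  refine ⟨(g1_phi hU p).image, (g1_phi hU p).imageι, hint, inferInstance, ?_, ?_, ?_⟩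
  · have h1 := g1_mem_range_imageι hU p (hU.primeIdealOf ⟨x, hxU⟩) hpm
    rwa [hU.fromSpec_primeIdealOf ⟨x, hxU⟩] at h1
  · intro hsub
    have h1 := hsub (g1_mem_range_imageι hU p ⟨p, hp⟩ le_rfl)
    have h2 : hU.fromSpec ⟨p, hp⟩ ∈ X.basicOpen h := by
      have h3 : (⟨p, hp⟩ : PrimeSpectrum Γ(X, U)) ∈ hU.fromSpec ⁻¹ᵁ X.basicOpen h := by
        rw [hU.fromSpec_preimage_basicOpen]
        exact hhp
      exact h3
    exact hhZ _ h2 h1
  · rw [g1_trdegK_image f hU p]
    exact htrp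

end Fermat.Agent.S26.Curves
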