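import Fermat.Agent.S26.Curves.H525.C45_h525

/-!
# S26 / P8 CURVES, leaf L5 = C5 : a Dedekind domain of finite type over an algebraically closed field is smooth
of relative dimension 1

Proof: delivered by helper525 (`H525/C5_h525.lean`, namespace-wrapped verbatim).  `m` maximal, `B ⧸ m = K`
(Nullstellensatz), `m ≠ ⊥` since `trdeg_K B = 1`; `t ∈ m \ m²`; `K[X] → B`, `X ↦ t` is étale at `m`
(flat + unramified), hence `B_f` is étale over `K[X]` for some `f ∉ m`; compose with `K → K[X]`.
-/

set_option autoImplicit false

universe u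

namespace Fermat.Agent.S26.Curves

theorem c5_exists_isStandardSmoothOfRelativeDimension_one (K B : Type u) [Field K] [IsAlgClosed K]
    [CommRing B] [IsDedekindDomain B] [Algebra K B] [Algebra.FiniteType K B]
    (hd : Algebra.trdeg K B = 1) (m : Ideal B) [m.IsMaximal] :
    ∃ f : B, f ∉ m ∧ Algebra.IsStandardSmoothOfRelativeDimension 1 K (Localization.Away f) := by
  have hF : ¬ IsField B := H525.c4_not_isField_of_trdeg_eq_one hd
  have hm0 : m ≠ ⊥ := fun h => hF (Ring.isField_iff_maximal_bot.mpr (h ▸ ‹m.IsMaximal›))
  exact H525.c5_exists_isStandardSmoothOfRelativeDimension_one K B m hm0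

/-- The global form used for `AlgebraicGeometry.SmoothOfRelativeDimension 1`. -/
theorem c5_locally_isStandardSmoothOfRelativeDimension_one (K B : Type u) [Field K] [IsAlgClosed K]
    [CommRing B] [IsDedekindDomain B] [Algebra K B] [Algebra.FiniteType K B]
    (hd : Algebra.trdeg K B = 1) :
    RingHom.Locally (RingHom.IsStandardSmoothOfRelativeDimension 1) (algebraMap K B) :=
  H525.c5_locally_isStandardSmoothOfRelativeDimension_one (H525.c4_not_isField_of_trdeg_eq_one hd)

end Fermat.Agent.S26.Curves
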