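import Fermat.Agent.S26.Curves.C4
import Fermat.Agent.S26.Curves.C5
import Fermat.Agent.S26.Curves.G4a

/-!
# S26 / P8 CURVES, leaf L7 = G2 : the smooth proper model (normalisation) of a proper integral curve

`γ : Γ → Spec K` proper, `Γ` integral, `trdegK γ = 1`, `K` algebraically closed.  Then there are an integral
scheme `C` and `ν : C → Γ` finite and surjective such that `ν ≫ γ` is proper and smooth of relative dimension `1`
(and `trdegK (ν ≫ γ) = 1`).

Proof.  `C := (Spec K(Γ) → Γ).normalization` (`Mathlib.AlgebraicGeometry.Normalization`), `ν := fromNormalization`: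
integral (instance), `C` integral (instance), dominant + closed ⟹ surjective.  Over an affine open `U = Spec R` of
`Γ`, `ν⁻¹ U = Spec (integralClosure R K(Γ))` (`normalizationObjIso`); leaf C4 (`c4_integralClosure`) gives
finiteness (so `ν` is finite, `ν ≫ γ` proper) and Dedekind + finite type + trdeg 1; leaf C5
(`c5_locally_isStandardSmoothOfRelativeDimension_one`) gives smoothness of relative dimension 1 on each chart
(`HasRingHomProperty` for `SmoothOfRelativeDimension 1`).  This file imports the C4, C5, G4a skeletons: do not reprove them.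

Proved by helper8685 (building on the normalisation-of-a-point-closure layout of helper7664's `NormCurve.lean`):
`g2_alg_core` (C4 + C5 transported along `K(Γ) ≃ Γ(Spec K(Γ), j⁻¹U)`), `g2_chart` (one affine chart),
`g2_isFinite`, `g2_surjective`, `g2_appLE` (the structure map of the chart), `g2_smooth`, `g2_trdegK`.
-/

set_option autoImplicit false

universe u

open AlgebraicGeometry CategoryTheory

set_option linter.style.haveILetI false

namespace Fermat.Agent.S26.Curves

/-- Algebra core of G2: transfer of C4 + C5 along a ring isomorphism of the ambient field. -/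
theorem g2_alg_core {K : Type u} [Field K] [IsAlgClosed K] (R : Type u) [CommRing R] [IsDomain R]
    [Algebra K R] [Algebra.FiniteType K R] (hd : Algebra.trdeg K R = 1)
    (F : Type u) [Field F] [Algebra R F] [IsFractionRing R F]
    (S : Type u) [CommRing S] [Algebra R S] (σ : F ≃+* S)
    (hσ : ∀ r : R, σ (algebraMap R F r) = algebraMap R S r) :
    Module.Finite R (integralClosure R S) ∧
    RingHom.Locally (RingHom.IsStandardSmoothOfRelativeDimension 1)
      ((algebraMap R (integralClosure R S)).comp (algebraMap K R)) ∧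
    (letI := ((algebraMap R (integralClosure R S)).comp (algebraMap K R)).toAlgebra
     Algebra.trdeg K (integralClosure R S) = 1) := by
  letI algKF : Algebra K F := ((algebraMap R F).comp (algebraMap K R)).toAlgebra
  haveI : IsScalarTower K R F := IsScalarTower.of_algebraMap_eq (fun _ => rfl)
  obtain ⟨hfin, hded, hft, htr⟩ := c4_integralClosure K R F hd
  let σa : F ≃ₐ[R] S := AlgEquiv.ofRingEquiv (f := σ) hσ
  let ψ : integralClosure R F ≃ₐ[R] integralClosure R S := σa.mapIntegralClosure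
  have hcomp : (algebraMap R (integralClosure R S)).comp (algebraMap K R) =
      (ψ : integralClosure R F ≃+* integralClosure R S).toRingHom.comp
        (algebraMap K (integralClosure R F)) := by
    ext c
    have h1 : algebraMap K (integralClosure R F) c =
        algebraMap R (integralClosure R F) (algebraMap K R c) :=
      IsScalarTower.algebraMap_apply K R (integralClosure R F) c
    simp only [RingHom.comp_apply, RingEquiv.toRingHom_eq_coe, RingHom.coe_coe, h1]
    exact congrArg Subtype.val (ψ.commutes (algebraMap K R c)).symm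
  refine ⟨Module.Finite.equiv ψ.toLinearEquiv, ?_, ?_⟩
  · have h5 := c5_locally_isStandardSmoothOfRelativeDimension_one K (integralClosure R F) htr
    rw [hcomp]
    exact (RingHom.locally_respectsIso
      RingHom.isStandardSmoothOfRelativeDimension_respectsIso).1 _ _ h5
  · letI := ((algebraMap R (integralClosure R S)).comp (algebraMap K R)).toAlgebra
    let ψK : integralClosure R F ≃ₐ[K] integralClosure R S :=
      AlgEquiv.ofRingEquiv (f := (ψ : integralClosure R F ≃+* integralClosure R S))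
        (fun c => (congrFun (congrArg DFunLike.coe hcomp) c).symm)
    rw [← ψK.trdeg_eq]
    exact htr


section Scheme

/-- The generic point morphism `Spec K(Γ) ⟶ Γ`. -/
noncomputable abbrev g2_gen (Γ : Scheme.{u}) [IsIntegral Γ] : Spec Γ.functionField ⟶ Γ :=
  Γ.fromSpecStalk (genericPoint Γ)

variable {Γ : Scheme.{u}} [IsIntegral Γ]

lemma g2_genericPoint_mem {U : Γ.Opens} (hne : (U : Set Γ).Nonempty) : genericPoint Γ ∈ U :=
  ((genericPoint_spec Γ).mem_open_set_iff U.isOpen).mpr (by simpa using hne)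

lemma g2_gen_apply_mem {U : Γ.Opens} (hη : genericPoint Γ ∈ U) (s : Spec Γ.functionField) :
    (g2_gen Γ) s ∈ U := by
  have h : (g2_gen Γ) s ∈ Set.range (g2_gen Γ) := ⟨s, rfl⟩
  rw [Scheme.range_fromSpecStalk] at h
  exact h.mem_open U.isOpen hη

lemma g2_gen_preimage {U : Γ.Opens} (hη : genericPoint Γ ∈ U) : (g2_gen Γ) ⁻¹ᵁ U = ⊤ := by
  ext s
  simp only [TopologicalSpace.Opens.coe_top, Set.mem_univ, iff_true]
  exact g2_gen_apply_mem hη s

lemma g2_gen_preimage_bot {U : Γ.Opens} (hη : ¬ (U : Set Γ).Nonempty) : (g2_gen Γ) ⁻¹ᵁ U = ⊥ := by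
  ext s
  simp only [TopologicalSpace.Opens.coe_bot, Set.mem_empty_iff_false, iff_false]
  intro hs
  exact hη ⟨_, hs⟩

/-- Sections of `Spec K(Γ)` over the preimage of an open containing the generic point. -/
noncomputable def g2_secIso {U : Γ.Opens} (hη : genericPoint Γ ∈ U) :
    Γ.functionField ≅ Γ(Spec Γ.functionField, (g2_gen Γ) ⁻¹ᵁ U) :=
  (Scheme.ΓSpecIso Γ.functionField).symm ≪≫
    (Spec Γ.functionField).presheaf.mapIso (eqToIso (g2_gen_preimage hη)).op

lemma g2_germ_secIso {U : Γ.Opens} (hη : genericPoint Γ ∈ U) :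
    Γ.presheaf.germ U (genericPoint Γ) hη ≫ (g2_secIso hη).hom = (g2_gen Γ).app U := by
  rw [Scheme.fromSpecStalk_app hη]
  rfl


variable {K : Type u} [Field K]

omit [IsIntegral Γ] in
lemma g2_finiteType (γ : Γ ⟶ Spec (.of K)) [LocallyOfFiniteType γ] {U : Γ.Opens}
    (hU : IsAffineOpen U) : (kToSections γ U).FiniteType := by
  have h1 : (γ.appLE ⊤ U le_top).hom.FiniteType :=
    γ.finiteType_appLE (isAffineOpen_top _) hU le_top
  have h2 : ((Scheme.ΓSpecIso (.of K)).inv ≫ γ.appLE ⊤ U le_top).hom.FiniteType := by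
    rw [CommRingCat.hom_comp]
    exact h1.comp (RingHom.FiniteType.of_surjective _
      (ConcreteCategory.bijective_of_isIso (Scheme.ΓSpecIso (CommRingCat.of K)).inv).2)
  exact h2

theorem g2_chart [IsAlgClosed K] (γ : Γ ⟶ Spec (.of K)) [LocallyOfFiniteType γ]
    (hd : trdegK γ = 1) {U : Γ.Opens} (hU : IsAffineOpen U) (hne : (U : Set Γ).Nonempty) :
    letI := ((g2_gen Γ).app U).hom.toAlgebra
    Module.Finite Γ(Γ, U) (integralClosure Γ(Γ, U) Γ(Spec Γ.functionField, (g2_gen Γ) ⁻¹ᵁ U)) ∧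
    RingHom.Locally (RingHom.IsStandardSmoothOfRelativeDimension 1)
      ((algebraMap Γ(Γ, U) (integralClosure Γ(Γ, U)
        Γ(Spec Γ.functionField, (g2_gen Γ) ⁻¹ᵁ U))).comp (kToSections γ U)) ∧
    (letI := ((algebraMap Γ(Γ, U) (integralClosure Γ(Γ, U)
        Γ(Spec Γ.functionField, (g2_gen Γ) ⁻¹ᵁ U))).comp (kToSections γ U)).toAlgebra
     Algebra.trdeg K (integralClosure Γ(Γ, U) Γ(Spec Γ.functionField, (g2_gen Γ) ⁻¹ᵁ U)) = 1) := by
  have hη := g2_genericPoint_mem hne
  haveI : Nonempty U := ⟨⟨_, hη⟩⟩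
  letI := ((g2_gen Γ).app U).hom.toAlgebra
  letI algKR : Algebra K Γ(Γ, U) := (kToSections γ U).toAlgebra
  haveI : Algebra.FiniteType K Γ(Γ, U) := g2_finiteType γ hU
  haveI := functionField_isFractionRing_of_isAffineOpen Γ U hU
  have hd' : Algebra.trdeg K Γ(Γ, U) = 1 := by
    rw [← g4_trdegK_eq_of_isAffineOpen γ U hU hne]; exact hd
  exact g2_alg_core Γ(Γ, U) hd' Γ.functionField Γ(Spec Γ.functionField, (g2_gen Γ) ⁻¹ᵁ U)
    (g2_secIso hη).commRingCatIsoToRingEquiv (fun r => congr($(g2_germ_secIso hη) r))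


lemma g2_isFinite [IsAlgClosed K] (γ : Γ ⟶ Spec (.of K)) [LocallyOfFiniteType γ]
    (hd : trdegK γ = 1) : IsFinite (g2_gen Γ).fromNormalization := by
  refine ⟨fun U hU => ?_⟩
  letI := ((g2_gen Γ).app U).hom.toAlgebra
  have hfin : Module.Finite Γ(Γ, U)
      (integralClosure Γ(Γ, U) Γ(Spec Γ.functionField, (g2_gen Γ) ⁻¹ᵁ U)) := by
    by_cases hne : (U : Set Γ).Nonempty
    · exact (g2_chart γ hd hU hne).1
    · haveI : Subsingleton Γ(Spec Γ.functionField, (g2_gen Γ) ⁻¹ᵁ U) := by
        rw [g2_gen_preimage_bot hne]; infer_instance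
      exact Module.Finite.of_finite
  rw [Scheme.Hom.fromNormalization_app (g2_gen Γ) hU, CommRingCat.hom_comp]
  refine RingHom.Finite.comp ?_ ?_
  · exact RingHom.Finite.of_surjective _
      ((ConcreteCategory.bijective_of_isIso ((g2_gen Γ).normalizationObjIso hU).inv).2)
  · exact RingHom.finite_algebraMap.mpr hfin

lemma g2_surjective : Surjective (g2_gen Γ).fromNormalization := by
  have hclosed : IsClosed (Set.range (g2_gen Γ).fromNormalization) :=
    (g2_gen Γ).fromNormalization.isClosedMap.isClosed_range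
  have hη : genericPoint Γ ∈ Set.range (g2_gen Γ).fromNormalization := by
    have h : genericPoint Γ ∈ Set.range (g2_gen Γ) := by
      rw [Scheme.range_fromSpecStalk]; exact specializes_rfl
    obtain ⟨s, hs⟩ := h
    refine ⟨(g2_gen Γ).toNormalization s, ?_⟩
    rw [← Scheme.Hom.comp_apply, Scheme.Hom.toNormalization_fromNormalization]
    exact hs
  have huniv : Set.range (g2_gen Γ).fromNormalization = Set.univ := by
    apply Set.eq_univ_of_univ_subset
    rw [← (genericPoint_spec Γ).def]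
    exact closure_minimal (Set.singleton_subset_iff.mpr hη) hclosed
  exact ⟨Set.range_eq_univ.mp huniv⟩

lemma g2_appLE (γ : Γ ⟶ Spec (.of K)) {U : Γ.Opens} (hU : IsAffineOpen U) :
    letI := ((g2_gen Γ).app U).hom.toAlgebra
    ((g2_gen Γ).fromNormalization ≫ γ).appLE ⊤ ((g2_gen Γ).fromNormalization ⁻¹ᵁ U) le_top =
      (Scheme.ΓSpecIso (.of K)).hom ≫
        CommRingCat.ofHom ((algebraMap Γ(Γ, U) (integralClosure Γ(Γ, U)
          Γ(Spec Γ.functionField, (g2_gen Γ) ⁻¹ᵁ U))).comp (kToSections γ U)) ≫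
        ((g2_gen Γ).normalizationObjIso hU).inv := by
  letI := ((g2_gen Γ).app U).hom.toAlgebra
  have h1 : ((g2_gen Γ).fromNormalization ≫ γ).appLE ⊤
      ((g2_gen Γ).fromNormalization ⁻¹ᵁ U) le_top =
      γ.appLE ⊤ U le_top ≫ (g2_gen Γ).fromNormalization.app U := by
    rw [Scheme.Hom.app_eq_appLE, Scheme.Hom.appLE_comp_appLE]
  have h2 : γ.appLE ⊤ U le_top =
      (Scheme.ΓSpecIso (.of K)).hom ≫ CommRingCat.ofHom (kToSections γ U) := by
    rw [kToSections, CommRingCat.ofHom_hom, Iso.hom_inv_id_assoc]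
    rfl
  rw [h1, Scheme.Hom.fromNormalization_app (g2_gen Γ) hU, h2]
  rfl

lemma g2_smooth [IsAlgClosed K] (γ : Γ ⟶ Spec (.of K)) [LocallyOfFiniteType γ]
    (hd : trdegK γ = 1) :
    SmoothOfRelativeDimension 1 ((g2_gen Γ).fromNormalization ≫ γ) := by
  let ι := {U : Γ.Opens // IsAffineOpen U ∧ (U : Set Γ).Nonempty}
  let V : ι → (g2_gen Γ).normalization.affineOpens := fun U =>
    ⟨(g2_gen Γ).fromNormalization ⁻¹ᵁ U.1, U.2.1.preimage (g2_gen Γ).fromNormalization⟩
  have hV : ⨆ i, (V i : (g2_gen Γ).normalization.Opens) = ⊤ := by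
    rw [eq_top_iff]
    intro z _
    obtain ⟨_, ⟨U, hU, rfl⟩, hzU, -⟩ := Γ.isBasis_affineOpens.exists_subset_of_mem_open
      (Set.mem_univ ((g2_gen Γ).fromNormalization z)) isOpen_univ
    exact TopologicalSpace.Opens.mem_iSup.mpr ⟨⟨U, hU, ⟨_, hzU⟩⟩, hzU⟩
  refine HasRingHomProperty.of_iSup_eq_top (P := @SmoothOfRelativeDimension 1) V hV (fun i => ?_)
  have hQ := RingHom.locally_respectsIso
    (RingHom.isStandardSmoothOfRelativeDimension_respectsIso (n := 1))
  letI := ((g2_gen Γ).app i.1).hom.toAlgebra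
  change RingHom.Locally _ (((g2_gen Γ).fromNormalization ≫ γ).appLE ⊤
    ((g2_gen Γ).fromNormalization ⁻¹ᵁ i.1) le_top).hom
  rw [g2_appLE γ i.2.1, CommRingCat.hom_comp, hQ.cancel_left_isIso, CommRingCat.hom_comp,
    hQ.cancel_right_isIso]
  exact (g2_chart γ hd i.2.1 i.2.2).2.1

lemma g2_trdegK [IsAlgClosed K] (γ : Γ ⟶ Spec (.of K)) [LocallyOfFiniteType γ]
    (hd : trdegK γ = 1) :
    trdegK ((g2_gen Γ).fromNormalization ≫ γ) = 1 := by
  obtain ⟨_, ⟨U, hU, rfl⟩, hηU, -⟩ := Γ.isBasis_affineOpens.exists_subset_of_mem_open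
    (Set.mem_univ (genericPoint Γ)) isOpen_univ
  have hne : (U : Set Γ).Nonempty := ⟨_, hηU⟩
  have hneV : (((g2_gen Γ).fromNormalization ⁻¹ᵁ U : (g2_gen Γ).normalization.Opens) :
      Set (g2_gen Γ).normalization).Nonempty := by
    obtain ⟨z, hz⟩ := (g2_surjective (Γ := Γ)).surj (genericPoint Γ)
    refine ⟨z, ?_⟩
    change (g2_gen Γ).fromNormalization z ∈ U
    rw [hz]; exact hηU
  rw [g4_trdegK_eq_of_isAffineOpen ((g2_gen Γ).fromNormalization ≫ γ)
    ((g2_gen Γ).fromNormalization ⁻¹ᵁ U) (hU.preimage _) hneV]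
  letI := ((g2_gen Γ).app U).hom.toAlgebra
  have h3 := (g2_chart γ hd hU hne).2.2
  letI algB := ((algebraMap Γ(Γ, U) (integralClosure Γ(Γ, U)
        Γ(Spec Γ.functionField, (g2_gen Γ) ⁻¹ᵁ U))).comp (kToSections γ U)).toAlgebra
  letI algV := (kToSections ((g2_gen Γ).fromNormalization ≫ γ)
    ((g2_gen Γ).fromNormalization ⁻¹ᵁ U)).toAlgebra
  have hk : CommRingCat.ofHom (kToSections ((g2_gen Γ).fromNormalization ≫ γ)
      ((g2_gen Γ).fromNormalization ⁻¹ᵁ U)) ≫ ((g2_gen Γ).normalizationObjIso hU).hom =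
      CommRingCat.ofHom ((algebraMap Γ(Γ, U) (integralClosure Γ(Γ, U)
        Γ(Spec Γ.functionField, (g2_gen Γ) ⁻¹ᵁ U))).comp (kToSections γ U)) := by
    have h4 : CommRingCat.ofHom (kToSections ((g2_gen Γ).fromNormalization ≫ γ)
        ((g2_gen Γ).fromNormalization ⁻¹ᵁ U)) = (Scheme.ΓSpecIso (.of K)).inv ≫
        ((g2_gen Γ).fromNormalization ≫ γ).appLE ⊤ ((g2_gen Γ).fromNormalization ⁻¹ᵁ U) le_top := by
      rw [kToSections, CommRingCat.ofHom_hom]
      rfl
    rw [h4, g2_appLE γ hU]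
    simp
  let eK : Γ((g2_gen Γ).normalization, (g2_gen Γ).fromNormalization ⁻¹ᵁ U) ≃ₐ[K]
      integralClosure Γ(Γ, U) Γ(Spec Γ.functionField, (g2_gen Γ) ⁻¹ᵁ U) :=
    AlgEquiv.ofRingEquiv (f := ((g2_gen Γ).normalizationObjIso hU).commRingCatIsoToRingEquiv)
      (fun c => congr($hk c))
  rw [eK.trdeg_eq]
  exact h3

end Scheme

theorem g2_exists_smooth_proper_model {K : Type u} [Field K] [IsAlgClosed K] {Γ : Scheme.{u}}
    (γ : Γ ⟶ Spec (.of K)) [IsProper γ] [IsIntegral Γ] (hd : trdegK γ = 1) :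
    ∃ (C : Scheme.{u}) (ν : C ⟶ Γ) (_ : IsIntegral C), IsFinite ν ∧ Surjective ν ∧
      IsProper (ν ≫ γ) ∧ SmoothOfRelativeDimension 1 (ν ≫ γ) ∧ trdegK (ν ≫ γ) = 1 := by
  haveI := g2_isFinite γ hd
  exact ⟨(g2_gen Γ).normalization, (g2_gen Γ).fromNormalization, inferInstance, inferInstance,
    g2_surjective, inferInstance, g2_smooth γ hd, g2_trdegK γ hd⟩

end Fermat.Agent.S26.Curves
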