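import Fermat.Agent.S26.Curves.Defs
import Fermat.Agent.S26.Curves.H7665.G3

/-!
# S26 / P8 CURVES, leaf L8 = G3 : lifting `K`-points along a surjective morphism

`K` algebraically closed, `ν : C → Γ` surjective, `Γ` and `C` locally of finite type over `K`.
Every `K`-point of `Γ` lifts to a `K`-point of `C`.

Proof.  `y := p(pt)` is a closed point of `Γ` (`AlgebraicGeometry.pointEquivClosedPoint`); `ν⁻¹{y}` is closed and
nonempty, `C` is a Jacobson space (`LocallyOfFiniteType.jacobsonSpace`), so `ν⁻¹{y}` contains a closed point `c`;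
`pointOfClosedPoint (ν ≫ γ) c _` is a `K`-point and `ext_of_apply_closedPoint_eq` identifies its image with `p`.
-/

set_option autoImplicit false

universe u

open AlgebraicGeometry CategoryTheory

namespace Fermat.Agent.S26.Curves

theorem g3_exists_point_over {K : Type u} [Field K] [IsAlgClosed K] {C Γ : Scheme.{u}}
    (ν : C ⟶ Γ) (γ : Γ ⟶ Spec (.of K)) [LocallyOfFiniteType γ] [LocallyOfFiniteType (ν ≫ γ)]
    [Surjective ν] (p : Spec (.of K) ⟶ Γ) (hp : p ≫ γ = 𝟙 _) :
    ∃ c : Spec (.of K) ⟶ C, c ≫ ν = p := by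
  -- delivered by helper7665 (`H7665/G3.lean`, namespace-wrapped verbatim)
  obtain ⟨c, -, hc⟩ := H7665.g3_exists_lift_of_surjective (ν ≫ γ) γ ν rfl ν.surjective p hp
  exact ⟨c, hc⟩

/-- Every nonempty scheme locally of finite type over an algebraically closed field has a `K`-point
in any given nonempty closed subset. -/
theorem g3_exists_point_mem {K : Type u} [Field K] [IsAlgClosed K] {X : Scheme.{u}}
    (f : X ⟶ Spec (.of K)) [LocallyOfFiniteType f] (Z : Set X) (hZ : IsClosed Z) (hZ' : Z.Nonempty) :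
    ∃ c : Spec (.of K) ⟶ X, c ≫ f = 𝟙 _ ∧ c (IsLocalRing.closedPoint K) ∈ Z := by
  obtain ⟨x, hxZ, hx⟩ := H7665.g3_exists_isClosed_mem f hZ hZ'
  obtain ⟨c, hc, hcx⟩ := H7665.g3_exists_section_of_isClosed f x hx
  exact ⟨c, hc, by rw [hcx]; exact hxZ⟩

end Fermat.Agent.S26.Curves
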