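import Fermat.Agent.S26.Curves.C1
import Fermat.Agent.S26.Curves.G4a

/-!
# S26 / P8 CURVES, leaf L11 = G5 : a proper integral closed subscheme has smaller transcendence degree

`g5_trdegK_lt` : `X` integral, locally of finite type over `K`; `j : V → X` a closed immersion, `V` integral,
`range j ≠ univ` ⟹ `trdegK (j ≫ x) < trdegK x`.
Proof.  Affine open `U = Spec R` of `X` meeting `range j`; `V ∩ U = Spec (R ⧸ P)`, `P` prime, `P ≠ ⊥` (else `V ⊇ U`,
dense, closed ⟹ `range j = univ`); leaf C1 (`c1_trdeg_quotient_lt`)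
and the bridge `g4_trdegK_eq_of_isAffineOpen` (this file imports the C1 and G4a skeletons, do not reprove them).

`g5_lift` : a morphism from a reduced scheme whose set-theoretic image lies in a closed subscheme factors through it
(the kernel ideal sheaf of `i` is contained in that of `j` because sections of a reduced scheme vanishing at all
points are zero; `IsClosedImmersion.lift`).

`g5_image` : the scheme-theoretic image of a quasi-compact morphism from an integral scheme is an integral closed
subscheme through which the morphism factors dominantly (Mathlib `Scheme.Hom.image`, `toImage`, `imageι`).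
-/

set_option autoImplicit false

universe u

open AlgebraicGeometry CategoryTheory

namespace Fermat.Agent.S26.Curves

/-- `kToSections` in terms of `appLE`. -/
theorem g5_kToSections_eq {K : Type u} [Field K] {X : Scheme.{u}} (x : X ⟶ Spec (.of K))
    (U : X.Opens) :
    kToSections x U = (x.appLE ⊤ U le_top).hom.comp (Scheme.ΓSpecIso (.of K)).inv.hom := by
  rfl

/-- The section algebra over an affine open of a `K`-scheme locally of finite type is of finite
type. -/
theorem g5_finiteType_sections {K : Type u} [Field K] {X : Scheme.{u}} (x : X ⟶ Spec (.of K))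
    [LocallyOfFiniteType x] (U : X.Opens) (hU : IsAffineOpen U) :
    @Algebra.FiniteType K Γ(X, U) _ _ (kToSections x U).toAlgebra := by
  have h1 : RingHom.FiniteType (x.appLE ⊤ U le_top).hom :=
    HasRingHomProperty.appLE (P := @LocallyOfFiniteType) x inferInstance
      ⟨⊤, isAffineOpen_top _⟩ ⟨U, hU⟩ le_top
  have h2 : RingHom.FiniteType (Scheme.ΓSpecIso (CommRingCat.of K)).inv.hom :=
    RingHom.FiniteType.of_surjective _
      (ConcreteCategory.bijective_of_isIso (Scheme.ΓSpecIso (CommRingCat.of K)).inv).2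
  rw [g5_kToSections_eq]
  exact RingHom.FiniteType.comp h1 h2

/-- Compatibility of the structure maps with a morphism of `K`-schemes. -/
theorem g5_app_comp_kToSections {K : Type u} [Field K] {X V : Scheme.{u}} (x : X ⟶ Spec (.of K))
    (j : V ⟶ X) (U : X.Opens) :
    (j.app U).hom.comp (kToSections x U) = kToSections (j ≫ x) (j ⁻¹ᵁ U) := by
  have hmor : x.appLE ⊤ U le_top ≫ j.app U = (j ≫ x).appLE ⊤ (j ⁻¹ᵁ U) le_top := by
    rw [Scheme.Hom.comp_appLE]
    simp only [Scheme.Hom.appLE, Category.assoc, Scheme.Hom.naturality]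
    rfl
  simp only [g5_kToSections_eq, ← hmor, CommRingCat.hom_comp, RingHom.comp_assoc]

theorem g5_trdegK_lt {K : Type u} [Field K] {X V : Scheme.{u}} (x : X ⟶ Spec (.of K))
    [LocallyOfFiniteType x] [IsIntegral X] (j : V ⟶ X) [IsClosedImmersion j] [IsIntegral V]
    (hj : Set.range j ≠ Set.univ) : trdegK (j ≫ x) < trdegK x := by
  obtain ⟨_, ⟨U, hU, rfl⟩, hxU, -⟩ :=
    X.isBasis_affineOpens.exists_subset_of_mem_open
      (Set.mem_univ (j (genericPoint V))) isOpen_univ
  have hU' : IsAffineOpen (j ⁻¹ᵁ U) := hU.preimage j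
  have : Nonempty U := ⟨⟨_, hxU⟩⟩
  have : Nonempty (j ⁻¹ᵁ U) := ⟨⟨genericPoint V, hxU⟩⟩
  rw [g4_trdegK_eq_of_isAffineOpen (j ≫ x) (j ⁻¹ᵁ U) hU' ⟨genericPoint V, hxU⟩,
    g4_trdegK_eq_of_isAffineOpen x U hU ⟨_, hxU⟩]
  let : Algebra K Γ(X, U) := (kToSections x U).toAlgebra
  let : Algebra K Γ(V, j ⁻¹ᵁ U) := (kToSections (j ≫ x) (j ⁻¹ᵁ U)).toAlgebra
  have : Algebra.FiniteType K Γ(X, U) := g5_finiteType_sections x U hU
  have hcomp := g5_app_comp_kToSections x j U
  let f : Γ(X, U) →ₐ[K] Γ(V, j ⁻¹ᵁ U) :=
    { (j.app U).hom with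
      commutes' := fun c => congrFun (congrArg DFunLike.coe hcomp) c }
  have hf : Function.Surjective f := j.app_surjective U hU
  have hkerf : RingHom.ker f = RingHom.ker (j.app U).hom := rfl
  have hker : RingHom.ker f ≠ ⊥ := by
    rw [hkerf]
    intro hbot
    apply hj
    have h1 : j.ker.ideal ⟨U, hU⟩ = ⊥ := by rw [Scheme.Hom.ker_apply]; exact hbot
    have h2 : (U : Set X) ⊆ j.ker.support := by
      intro y hy
      rw [SetLike.mem_coe, Scheme.IdealSheafData.mem_support_iff_of_mem (U := ⟨U, hU⟩) hy, h1]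
      simp
    have h3 : (j.ker.support : Set X) = Set.range j := by
      rw [Scheme.Hom.support_ker]; exact j.isClosedEmbedding.isClosed_range.closure_eq
    have h4 : Dense (U : Set X) := U.isOpen.dense ⟨_, hxU⟩
    rw [← h3]
    exact Set.eq_univ_of_univ_subset
      (h4.closure_eq ▸ closure_minimal h2 j.ker.support.isClosed)
  have hprime : (RingHom.ker f).IsPrime := RingHom.ker_isPrime f
  have key := c1_trdeg_quotient_lt K Γ(X, U) (RingHom.ker f) hker
  have e : (Γ(X, U) ⧸ RingHom.ker f) ≃ₐ[K] Γ(V, j ⁻¹ᵁ U) :=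
    Ideal.quotientKerAlgEquivOfSurjective hf
  rw [e.trdeg_eq] at key
  exact key

theorem g5_lift {B Z Y : Scheme.{u}} (j : B ⟶ Y) (i : Z ⟶ Y) [IsClosedImmersion i] [IsReduced B]
    (h : Set.range j ⊆ Set.range i) : ∃ l : B ⟶ Z, l ≫ i = j := by
  have hker : i.ker ≤ j.ker := by
    refine Scheme.IdealSheafData.le_ofIdeals_iff.mpr ?_
    intro U a ha
    rw [Scheme.Hom.ker_apply, RingHom.mem_ker] at ha
    show a ∈ RingHom.ker (j.app U).hom
    rw [RingHom.mem_ker]
    -- the section `j.app U a` of the reduced scheme `B` vanishes at every point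
    have hb : B.basicOpen ((j.app U).hom a) = ⊥ := by
      rw [← Scheme.preimage_basicOpen]
      ext b
      simp only [TopologicalSpace.Opens.coe_bot, Set.mem_empty_iff_false, iff_false]
      intro hb
      obtain ⟨z, hz⟩ := h ⟨b, rfl⟩
      have hz' : z ∈ i ⁻¹ᵁ (Y.basicOpen a) := by
        show i z ∈ Y.basicOpen a
        rw [hz]; exact hb
      rw [Scheme.preimage_basicOpen] at hz'
      have h0 : (i.app U).hom a = 0 := ha
      rw [h0, Scheme.basicOpen_zero] at hz'
      exact hz'
    exact (basicOpen_eq_bot_iff _).mp hb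
  exact ⟨IsClosedImmersion.lift i j hker, IsClosedImmersion.lift_fac i j hker⟩

theorem g5_image {X Y : Scheme.{u}} (φ : X ⟶ Y) [QuasiCompact φ] [IsIntegral X] :
    ∃ (B : Scheme.{u}) (j : B ⟶ Y) (ψ : X ⟶ B) (_ : IsIntegral B), IsClosedImmersion j ∧
      IsDominant ψ ∧ ψ ≫ j = φ ∧ Set.range j = closure (Set.range φ) := by
  have hsupp : (φ.ker.support : Set Y) = closure (Set.range φ) := Scheme.Hom.support_ker φ
  have hred : IsReduced φ.image := by
    have : ∀ U : φ.ker.subschemeCover.openCover.I₀,
        IsReduced (φ.ker.subschemeCover.openCover.X U) := by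
      intro (U : Y.affineOpens)
      have hrad : (φ.ker.ideal U).IsRadical := by
        rw [Scheme.Hom.ker_apply]
        rintro a ⟨n, hn⟩
        rw [RingHom.mem_ker] at hn ⊢
        rw [map_pow] at hn
        exact IsNilpotent.eq_zero ⟨n, hn⟩
      have : _root_.IsReduced (Γ(Y, U) ⧸ φ.ker.ideal U) :=
        (Ideal.isRadical_iff_quotient_reduced _).mp hrad
      show IsReduced (Spec (CommRingCat.of (Γ(Y, U) ⧸ φ.ker.ideal U)))
      infer_instance
    exact IsReduced.of_openCover _ φ.ker.subschemeCover.openCover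
  have hirr : IsIrreducible (φ.ker.support : Set Y) := by
    rw [hsupp, isIrreducible_iff_closure, ← Set.image_univ]
    exact (IrreducibleSpace.isIrreducible_univ X).image _ φ.continuous.continuousOn
  have hirrS : IrreducibleSpace φ.image :=
    Subtype.irreducibleSpace (s := (φ.ker.support : Set Y)) hirr
  refine ⟨φ.image, φ.imageι, φ.toImage, isIntegral_of_irreducibleSpace_of_isReduced _,
    inferInstance, inferInstance, φ.toImage_imageι, ?_⟩
  rw [← hsupp]
  exact Scheme.IdealSheafData.range_subschemeι _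

end Fermat.Agent.S26.Curves
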