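import Fermat.Agent.S26.TChainDefs
import Fermat.Agent.S26.Curves.G1
import Fermat.Agent.S26.Curves.G2
import Fermat.Agent.S26.Curves.G3
import Fermat.Agent.S26.Curves.G5

/-!
# S26 / P8 CURVES -> cube chain: curves through a point of an irreducible closed subset (R6, R7)

Requests R6, R7 of the P15 (CUBE3) board, also used by the lead's blueprint ((DC), CUBE3 (A)):

* `r6_exists_curve_in` (R6): `X` locally of finite type over `K` (algebraically closed), `H ⊆ X` irreducible
  closed, `h ∈ H` a closed point, `H ≠ {h}`, `Z` closed with `¬ H ⊆ Z`.  Then there is an integral closed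
  curve `Γ ⊆ H` (closed immersion `j : Γ → X`, `trdegK = 1`) through `h`, not contained in `Z`.
* `r7_exists_model` (R7): an integral closed curve `j : Γ → X` of a proper `K`-scheme is the image of a
  smooth proper curve `B` (in the sense of `TChain.IsSmoothProperCurve`) under a finite `K`-morphism.
* `r7_exists_smooth_proper_curve` (R6 + R7): `X` proper over `K`; then there are a smooth proper curve
  `sB : B → Spec K`, a finite `K`-morphism `ν : B → X` with image inside `H`, not inside `Z`, and a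
  `K`-point `b` of `B` with `ν b = h`.  `r7_exists_smooth_proper_curve_of_mem`: the same with `h ∈ Z`
  instead of `H ≠ {h}` (e.g. `X = C × T`, `h = (x, t₀)`, `Z = p_T⁻¹(t₀)`; then `ν ≫ p_T : B → T` is a
  non-constant map from a smooth proper curve through `t₀`, and `(ν ≫ p_C, 𝟙) : B → C × B` lifts the curve).

Everything is deduced from the frozen P8 leaves `g1_exists_curve`, `g2_exists_smooth_proper_model`,
`g3_exists_point_mem`, `g5_image`, `g5_trdegK_lt` (all proved in the merged P8 tree).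
-/

set_option autoImplicit false

universe u

open AlgebraicGeometry CategoryTheory CategoryTheory.Limits

namespace Fermat.Agent.S26.Curves

/-- An irreducible closed subset of a scheme is the range of a closed immersion from an integral
scheme. -/
theorem r6_exists_integral_closed {X : Scheme.{u}} (H : Set X) (hHirr : IsIrreducible H)
    (hHcl : IsClosed H) :
    ∃ (V : Scheme.{u}) (i : V ⟶ X) (_ : IsIntegral V), IsClosedImmersion i ∧ Set.range i = H := by
  obtain ⟨ξ, hξ⟩ := QuasiSober.sober hHirr hHcl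
  obtain ⟨V, i, -, hV, hi, -, -, hrange⟩ := g5_image (X.fromSpecResidueField ξ)
  refine ⟨V, i, hV, hi, ?_⟩
  rw [hrange, Scheme.range_fromSpecResidueField]
  exact hξ.def

/-- An integral scheme locally of finite type over `K` with a closed point which is not the whole
space has positive transcendence degree. -/
theorem r6_one_le_trdegK {K : Type u} [Field K] {V : Scheme.{u}} (f : V ⟶ Spec (.of K))
    [LocallyOfFiniteType f] [IsIntegral V] (v : V) (hv : IsClosed ({v} : Set V))
    (hne : ({v} : Set V) ≠ Set.univ) : 1 ≤ trdegK f := by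
  obtain ⟨W, jw, hW, hjw, hrange⟩ := r6_exists_integral_closed ({v} : Set V)
    isIrreducible_singleton hv
  have hlt : trdegK (jw ≫ f) < trdegK f := g5_trdegK_lt f jw (by rw [hrange]; exact hne)
  exact Cardinal.one_le_iff_pos.mpr (lt_of_le_of_lt zero_le hlt)

/-- R6: curve selection inside an irreducible closed subset. -/
theorem r6_exists_curve_in {K : Type u} [Field K] [IsAlgClosed K] {X : Scheme.{u}}
    (f : X ⟶ Spec (.of K)) [LocallyOfFiniteType f]
    (H : Set X) (hHirr : IsIrreducible H) (hHcl : IsClosed H)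
    (h : X) (hh : h ∈ H) (hcl : IsClosed ({h} : Set X)) (hne : H ≠ {h})
    (Z : Set X) (hZ : IsClosed Z) (hHZ : ¬ H ⊆ Z) :
    ∃ (Γ : Scheme.{u}) (j : Γ ⟶ X) (_ : IsIntegral Γ), IsClosedImmersion j ∧ Set.range j ⊆ H ∧
      h ∈ Set.range j ∧ ¬ Set.range j ⊆ Z ∧ trdegK (j ≫ f) = 1 := by
  obtain ⟨V, i, hV, hi, hrange⟩ := r6_exists_integral_closed H hHirr hHcl
  have hinj : Function.Injective i := i.isClosedEmbedding.injective
  obtain ⟨v, hv⟩ : h ∈ Set.range i := by rw [hrange]; exact hh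
  have hvcl : IsClosed ({v} : Set V) := by
    have : ({v} : Set V) = i ⁻¹' {h} := by
      ext y
      simp only [Set.mem_singleton_iff, Set.mem_preimage]
      constructor
      · rintro rfl; exact hv
      · intro hy; exact hinj (hy.trans hv.symm)
    rw [this]
    exact hcl.preimage i.continuous
  have hvne : ({v} : Set V) ≠ Set.univ := by
    intro huniv
    apply hne
    rw [← hrange]
    ext y
    simp only [Set.mem_range, Set.mem_singleton_iff]
    constructor
    · rintro ⟨w, rfl⟩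
      have hw : w ∈ ({v} : Set V) := by rw [huniv]; trivial
      rw [Set.mem_singleton_iff.mp hw]; exact hv
    · rintro rfl; exact ⟨v, hv⟩
  have hd : 1 ≤ trdegK (i ≫ f) := r6_one_le_trdegK (i ≫ f) v hvcl hvne
  have hZ' : IsClosed (i ⁻¹' Z) := hZ.preimage i.continuous
  have hZne : i ⁻¹' Z ≠ Set.univ := by
    intro huniv
    apply hHZ
    rw [← hrange]
    rintro _ ⟨w, rfl⟩
    have hw : w ∈ i ⁻¹' Z := by rw [huniv]; trivial
    exact hw
  obtain ⟨Γ, j', hΓ, hj', hvj', hnj', htr⟩ := g1_exists_curve (i ≫ f) hd v hvcl (i ⁻¹' Z) hZ' hZne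
  refine ⟨Γ, j' ≫ i, hΓ, inferInstance, ?_, ?_, ?_, ?_⟩
  · rintro _ ⟨y, rfl⟩
    rw [← hrange]
    exact ⟨j' y, rfl⟩
  · obtain ⟨y, hy⟩ := hvj'
    exact ⟨y, by rw [Scheme.Hom.comp_apply, hy, hv]⟩
  · intro hsub
    apply hnj'
    rintro _ ⟨y, rfl⟩
    exact hsub ⟨y, rfl⟩
  · rw [Category.assoc]
    exact htr

/-- R7: a proper integral curve inside a `K`-scheme is the image of a smooth proper curve under a
finite morphism. -/
theorem r7_exists_model {K : Type u} [Field K] [IsAlgClosed K] {X Γ : Scheme.{u}}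
    (f : X ⟶ Spec (.of K)) [IsProper f] (j : Γ ⟶ X) [IsClosedImmersion j] [IsIntegral Γ]
    (hd : trdegK (j ≫ f) = 1) :
    ∃ (B : Scheme.{u}) (sB : B ⟶ Spec (CommRingCat.of K)) (ν : B ⟶ X),
      IsSmoothProperCurve sB ∧ ν ≫ f = sB ∧ IsFinite ν ∧ Set.range ν = Set.range j := by
  obtain ⟨C, ν₀, hC, hfin, hsurj, hprop, hsm, -⟩ := g2_exists_smooth_proper_model (j ≫ f) hd
  refine ⟨C, ν₀ ≫ j ≫ f, ν₀ ≫ j, ⟨hC, hprop, hsm⟩, Category.assoc _ _ _, inferInstance, ?_⟩
  ext y
  constructor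
  · rintro ⟨c, rfl⟩
    exact ⟨ν₀ c, rfl⟩
  · rintro ⟨g, rfl⟩
    obtain ⟨c, rfl⟩ := hsurj.surj g
    exact ⟨c, rfl⟩

/-- R6 + R7: a smooth proper curve through a closed point `h` of an irreducible closed subset `H`
(with more than one point) of a proper `K`-scheme, not contained in a given closed subset `Z ⊉ H`. -/
theorem r7_exists_smooth_proper_curve {K : Type u} [Field K] [IsAlgClosed K] {X : Scheme.{u}}
    (f : X ⟶ Spec (.of K)) [IsProper f]
    (H : Set X) (hHirr : IsIrreducible H) (hHcl : IsClosed H)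
    (h : X) (hh : h ∈ H) (hcl : IsClosed ({h} : Set X)) (hne : H ≠ {h})
    (Z : Set X) (hZ : IsClosed Z) (hHZ : ¬ H ⊆ Z) :
    ∃ (B : Scheme.{u}) (sB : B ⟶ Spec (CommRingCat.of K)) (ν : B ⟶ X) (b : Pts sB),
      IsSmoothProperCurve sB ∧ ν ≫ f = sB ∧ IsFinite ν ∧ Set.range ν ⊆ H ∧ ¬ Set.range ν ⊆ Z ∧
        ν.base (ptOf b) = h := by
  obtain ⟨Γ, j, hΓ, hj, hjH, hhj, hjZ, htr⟩ :=
    r6_exists_curve_in f H hHirr hHcl h hh hcl hne Z hZ hHZ
  obtain ⟨B, sB, ν, hB, hν, hfin, hrange⟩ := r7_exists_model f j htr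
  have hprop : IsProper sB := hB.proper
  have hcl' : IsClosed (ν ⁻¹' {h}) := hcl.preimage ν.continuous
  have hne' : (ν ⁻¹' {h}).Nonempty := by
    rw [← hrange] at hhj
    obtain ⟨y, hy⟩ := hhj
    exact ⟨y, hy⟩
  obtain ⟨c, hc, hch⟩ := g3_exists_point_mem sB (ν ⁻¹' {h}) hcl' hne'
  refine ⟨B, sB, ν, ⟨c, hc⟩, hB, hν, hfin, ?_, ?_, hch⟩
  · rw [hrange]; exact hjH
  · rw [hrange]; exact hjZ

/-- Variant of `r7_exists_smooth_proper_curve` with `h ∈ Z` instead of `H ≠ {h}`
(the form used for `Z = p_T⁻¹(t₀)`, `h = (x, t₀)`). -/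
theorem r7_exists_smooth_proper_curve_of_mem {K : Type u} [Field K] [IsAlgClosed K]
    {X : Scheme.{u}} (f : X ⟶ Spec (.of K)) [IsProper f]
    (H : Set X) (hHirr : IsIrreducible H) (hHcl : IsClosed H)
    (h : X) (hh : h ∈ H) (hcl : IsClosed ({h} : Set X))
    (Z : Set X) (hZ : IsClosed Z) (hhZ : h ∈ Z) (hHZ : ¬ H ⊆ Z) :
    ∃ (B : Scheme.{u}) (sB : B ⟶ Spec (CommRingCat.of K)) (ν : B ⟶ X) (b : Pts sB),
      IsSmoothProperCurve sB ∧ ν ≫ f = sB ∧ IsFinite ν ∧ Set.range ν ⊆ H ∧ ¬ Set.range ν ⊆ Z ∧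
        ν.base (ptOf b) = h := by
  refine r7_exists_smooth_proper_curve f H hHirr hHcl h hh hcl ?_ Z hZ hHZ
  rintro rfl
  exact hHZ (Set.singleton_subset_iff.mpr hhZ)

end Fermat.Agent.S26.Curves
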