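import Fermat.Agent.S26.Curves.G4a
import Fermat.Agent.S26.Curves.G4b.GeomIntegral
import Fermat.Agent.S26.Curves.G4b.TrdegSup
import Fermat.Agent.S26.Curves.G4b.Pushout

/-!
# S26 / P8 CURVES, leaf L10 = G4b : products of integral `K`-schemes, `K` algebraically closed

* `g4_isIntegral_pullback` : the product of two integral schemes locally of finite type over an algebraically closed
  field is integral (Mathlib `AlgebraicGeometry/Geometrically/Integral.lean`; or by hand: `R ⊗[K] R'` is a domain
  for `K`-domains over an algebraically closed field, irreducibility by the usual fibre argument).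
* `g4_trdegK_pullback_le` : `trdegK (X ×_K C) ≤ trdegK X + trdegK C`
  (on affine charts `Spec R`, `Spec R'`: `Γ = R ⊗[K] R'` is generated by the images of `R` and `R'`, so it is
  algebraic over the subalgebra generated by the images of transcendence bases of `R` and `R'`; bridge
  `g4_trdegK_eq_of_isAffineOpen` from the G4a skeleton, do not reprove it).
-/

set_option autoImplicit false

universe u

open AlgebraicGeometry CategoryTheory CategoryTheory.Limits

namespace Fermat.Agent.S26.Curves

theorem g4_isIntegral_pullback {K : Type u} [Field K] [IsAlgClosed K] {X C : Scheme.{u}}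
    (x : X ⟶ Spec (.of K)) (c : C ⟶ Spec (.of K)) [LocallyOfFiniteType x] [LocallyOfFiniteType c]
    [IsIntegral X] [IsIntegral C] : IsIntegral (pullback x c) :=
  G4h6623.g4_isIntegral_pullback x c

/-- Compatibility of the structure maps `K → Γ` with pullback of sections. -/
theorem g4_kToSections_comp {K : Type u} [Field K] {X Y : Scheme.{u}} (φ : Y ⟶ X)
    (x : X ⟶ Spec (.of K)) (U : X.Opens) (V : Y.Opens) (e : V ≤ φ ⁻¹ᵁ U) :
    (φ.appLE U V e).hom.comp (kToSections x U) = kToSections (φ ≫ x) V := by
  unfold kToSections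
  rw [← CommRingCat.hom_comp]
  congr 1
  simp only [Category.assoc]
  congr 1
  rw [Scheme.Hom.comp_appTop, Category.assoc]
  congr 1
  rw [Scheme.Hom.map_appLE]
  rfl

/-- Every integral scheme has a nonempty affine open. -/
theorem g4_exists_isAffineOpen (X : Scheme.{u}) [Nonempty X] :
    ∃ U : X.Opens, IsAffineOpen U ∧ (U : Set X).Nonempty := by
  obtain ⟨x⟩ : Nonempty X := inferInstance
  exact ⟨(X.affineCover.f (X.affineCover.idx x)).opensRange,
    isAffineOpen_opensRange (X.affineCover.f _), ⟨x, X.affineCover.covers x⟩⟩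

theorem g4_trdegK_pullback_le {K : Type u} [Field K] [IsAlgClosed K] {X C : Scheme.{u}}
    (x : X ⟶ Spec (.of K)) (c : C ⟶ Spec (.of K)) [LocallyOfFiniteType x] [LocallyOfFiniteType c]
    [IsIntegral X] [IsIntegral C] [IsIntegral (pullback x c)] :
    trdegK (pullback.fst x c ≫ x) ≤ trdegK x + trdegK c := by
  obtain ⟨UX, hUX, hneX⟩ := g4_exists_isAffineOpen X
  obtain ⟨UC, hUC, hneC⟩ := g4_exists_isAffineOpen C
  let UP : (pullback x c).Opens := pullback.fst x c ⁻¹ᵁ UX ⊓ pullback.snd x c ⁻¹ᵁ UC
  have H : IsPullback (pullback.fst x c) (pullback.snd x c) x c := IsPullback.of_hasPullback x c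
  have hUST : UC ≤ c ⁻¹ᵁ (⊤ : (Spec (CommRingCat.of K)).Opens) := le_top
  have hUSX : UX ≤ x ⁻¹ᵁ (⊤ : (Spec (CommRingCat.of K)).Opens) := le_top
  have hS : IsAffineOpen (⊤ : (Spec (CommRingCat.of K)).Opens) := isAffineOpen_top _
  have hUY : UP = pullback.fst x c ⁻¹ᵁ UX ⊓ pullback.snd x c ⁻¹ᵁ UC := rfl
  have hiso := isIso_pushoutSection_of_isAffineOpen H hUST hUSX hUY hS hUC hUX
  have hPO := (isIso_pushoutSection_iff H hUST hUSX hUY).mp hiso
  have hUP : IsAffineOpen UP := by
    have : IsAffine _ := hS
    have : IsAffine _ := hUC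
    have : IsAffine _ := hUX
    exact .of_isIso (Scheme.Hom.isPullback_resLE H hUST hUSX hUY).isoPullback.hom
  have hneP : (UP : Set ↥(pullback x c)).Nonempty := by
    obtain ⟨a, ha⟩ := hneX
    obtain ⟨b, hb⟩ := hneC
    obtain ⟨z, hz, hz'⟩ := Scheme.Pullback.exists_preimage_pullback (f := x) (g := c) a b
      (Subsingleton.elim _ _)
    refine ⟨z, ?_, ?_⟩
    · show pullback.fst x c z ∈ UX
      rw [hz]; exact ha
    · show pullback.snd x c z ∈ UC
      rw [hz']; exact hb
  rw [g4_trdegK_eq_of_isAffineOpen (pullback.fst x c ≫ x) UP hUP hneP,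
    g4_trdegK_eq_of_isAffineOpen x UX hUX hneX, g4_trdegK_eq_of_isAffineOpen c UC hUC hneC]
  let algP := (kToSections (pullback.fst x c ≫ x) UP).toAlgebra
  let algX := (kToSections x UX).toAlgebra
  let algC := (kToSections c UC).toAlgebra
  have hdom : IsDomain Γ(pullback x c, UP) := by
    have : Nonempty UP := ⟨⟨_, hneP.choose_spec⟩⟩
    infer_instance
  let φ : Γ(X, UX) →ₐ[K] Γ(pullback x c, UP) :=
    { ((pullback.fst x c).appLE UX UP inf_le_left).hom with
      commutes' := fun k => congrArg (fun m : K →+* Γ(pullback x c, UP) => m k)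
        (g4_kToSections_comp (pullback.fst x c) x UX UP inf_le_left) }
  let ψ : Γ(C, UC) →ₐ[K] Γ(pullback x c, UP) :=
    { ((pullback.snd x c).appLE UC UP inf_le_right).hom with
      commutes' := fun k => by
        have h1 := g4_kToSections_comp (pullback.snd x c) c UC UP inf_le_right
        have h2 : kToSections (pullback.snd x c ≫ c) UP =
            kToSections (pullback.fst x c ≫ x) UP := by rw [pullback.condition]
        exact congrArg (fun m : K →+* Γ(pullback x c, UP) => m k) (h1.trans h2) }
  refine G4h6623.g4_trdeg_le_of_range_sup_eq_top φ ψ ?_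
  have htop := G4h6623.g4_subring_eq_top_of_isPushout hPO (φ.range ⊔ ψ.range).toSubring
    (fun r => (le_sup_left : φ.range ≤ φ.range ⊔ ψ.range) ⟨r, rfl⟩)
    (fun r => (le_sup_right : ψ.range ≤ φ.range ⊔ ψ.range) ⟨r, rfl⟩)
  rw [eq_top_iff]
  intro t _
  have ht : t ∈ (φ.range ⊔ ψ.range).toSubring := by rw [htop]; trivial
  exact ht

end Fermat.Agent.S26.Curves
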