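import Mathlib

/-!
# S26 / P8 CURVES, leaf L0 = C1 : the transcendence degree drops modulo a nonzero prime

`c1_trdeg_quotient_lt` : `R` a finitely generated `K`-algebra, domain, `P` a nonzero prime ideal
`⟹ trdeg_K (R ⧸ P) < trdeg_K R`.

Proof sketch.  `trdeg_K R < ℵ₀` (`Algebra.trdeg_lt_aleph0_of_finiteType`).  Take a transcendence basis
`x̄ : ι → R ⧸ P`, lift it to `y : ι → R`, pick `0 ≠ h ∈ P`.  Then `Option ι → R`, `none ↦ h`, `some i ↦ y i`
is algebraically independent over `K`: a relation `Σ_j F_j(y) h^j = 0` may be divided by `h` until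
`F_0 ≠ 0`, and then `F_0(x̄) = 0` in `R ⧸ P`, contradiction.  Hence `trdeg_K (R ⧸ P) + 1 ≤ trdeg_K R`.
-/

set_option autoImplicit false

namespace Fermat.Agent.S26.Curves

open Cardinal in
theorem c1_trdeg_quotient_lt (K R : Type*) [Field K] [CommRing R] [IsDomain R] [Algebra K R]
    [Algebra.FiniteType K R] (P : Ideal R) [P.IsPrime] (hP : P ≠ ⊥) :
    Algebra.trdeg K (R ⧸ P) < Algebra.trdeg K R := by
  classical
  have hfin : Algebra.trdeg K R < ℵ₀ := trdeg_lt_aleph0_of_finiteType
  have hfs : FaithfulSMul K (R ⧸ P) :=
    (faithfulSMul_iff_algebraMap_injective K (R ⧸ P)).mpr (algebraMap K (R ⧸ P)).injective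
  obtain ⟨s, hs⟩ := exists_isTranscendenceBasis K (R ⧸ P)
  -- lift the basis
  have hsurj : Function.Surjective (Ideal.Quotient.mkₐ K P) := Ideal.Quotient.mkₐ_surjective K P
  choose y hy using fun i : s => hsurj (i : R ⧸ P)
  have hcomp : (Ideal.Quotient.mkₐ K P) ∘ y = ((↑) : s → R ⧸ P) := funext hy
  have hyind : AlgebraicIndependent K y := by
    apply AlgebraicIndependent.of_comp (Ideal.Quotient.mkₐ K P)
    rw [hcomp]; exact hs.1
  -- a nonzero element of P
  obtain ⟨h, hhP, hh0⟩ := Submodule.exists_mem_ne_zero_of_ne_bot hP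
  -- injectivity of `adjoin K (range y) → R ⧸ P`
  have hinj : ∀ z : Algebra.adjoin K (Set.range y), Ideal.Quotient.mk P (z : R) = 0 → z = 0 := by
    rintro ⟨z, hz⟩ hz0
    rw [Algebra.adjoin_range_eq_range_aeval] at hz
    obtain ⟨q, rfl⟩ := hz
    have h1 : MvPolynomial.aeval ((↑) : s → R ⧸ P) q = 0 := by
      have h3 := MvPolynomial.comp_aeval_apply (f := y) (Ideal.Quotient.mkₐ K P) q
      have h4 : (fun i => (Ideal.Quotient.mkₐ K P) (y i)) = ((↑) : s → R ⧸ P) := funext hy
      rw [h4] at h3
      rw [← h3]
      exact hz0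
    have h2 : q = 0 := by
      have := hs.1
      rw [algebraicIndependent_iff_injective_aeval] at this
      exact this (by rw [h1, map_zero])
    subst h2
    ext
    simp
  have htr : Transcendental (Algebra.adjoin K (Set.range y)) h := by
    rw [transcendental_iff]
    have key : ∀ n : ℕ, ∀ p : Polynomial (Algebra.adjoin K (Set.range y)), p.natDegree ≤ n →
        Polynomial.aeval h p = 0 → p = 0 := by
      intro n
      induction n with
      | zero =>
        intro p hpn hp
        rw [Polynomial.eq_C_of_natDegree_le_zero hpn] at hp ⊢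
        have : p.coeff 0 = 0 := by
          apply hinj
          have := congrArg (Ideal.Quotient.mk P) hp
          simpa using this
        rw [this, map_zero]
      | succ n ih =>
        intro p hpn hp
        have e1 : Polynomial.aeval h p = Polynomial.aeval h (Polynomial.divX p) * h
            + algebraMap (Algebra.adjoin K (Set.range y)) R (p.coeff 0) := by
          conv_lhs => rw [← Polynomial.divX_mul_X_add p]
          simp
        have h0 : p.coeff 0 = 0 := by
          apply hinj
          have := congrArg (Ideal.Quotient.mk P) hp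
          rw [e1, map_add, map_mul, Ideal.Quotient.eq_zero_iff_mem.mpr hhP, mul_zero, zero_add,
            map_zero] at this
          exact this
        rw [h0, map_zero, add_zero] at e1
        have hq : Polynomial.aeval h (Polynomial.divX p) = 0 := by
          rw [e1] at hp
          exact (mul_eq_zero.mp hp).resolve_right hh0
        have hq0 : Polynomial.divX p = 0 := by
          apply ih _ _ hq
          rw [Polynomial.natDegree_divX_eq_natDegree_tsub_one]
          omega
        have := Polynomial.divX_mul_X_add p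
        rw [hq0, h0] at this
        simpa using this.symm
    intro p hp
    exact key _ p le_rfl hp
  have hopt : AlgebraicIndependent K (fun o : Option s ↦ o.elim h y) :=
    AlgebraicIndependent.option_iff.mpr ⟨hyind, htr⟩
  have hle := hopt.cardinalMk_le_trdeg
  rw [Cardinal.mk_option, hs.cardinalMk_eq_trdeg] at hle
  have hfin' : Algebra.trdeg K (R ⧸ P) < ℵ₀ :=
    lt_of_le_of_lt (le_trans (le_add_right le_rfl) hle) hfin
  obtain ⟨n, hn⟩ := Cardinal.lt_aleph0.mp hfin'
  obtain ⟨m, hm⟩ := Cardinal.lt_aleph0.mp hfin
  rw [hn, hm] at hle ⊢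
  have : n + 1 ≤ m := by exact_mod_cast hle
  exact_mod_cast this

end Fermat.Agent.S26.Curves
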