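import Mathlib

/-!
# S26 / P8 CURVES, leaf L1 = C2 : going-down for integral extensions of integrally closed domains

`c2_hasGoingDown` : `S` an integrally closed domain, `R` a domain, `S → R` injective and integral
`⟹ Algebra.HasGoingDown S R`.

This is a Mathlib instance (`Mathlib/RingTheory/IntegralClosure/GoingDown.lean`, Stacks 00H8);
we record it under the frozen names, together with the form used by C3.
-/

set_option autoImplicit false

namespace Fermat.Agent.S26.Curves

theorem c2_hasGoingDown (S R : Type*) [CommRing S] [IsDomain S] [IsIntegrallyClosed S]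
    [CommRing R] [IsDomain R] [Algebra S R] [Algebra.IsIntegral S R] [FaithfulSMul S R] :
    Algebra.HasGoingDown S R := by
  infer_instance

/-- The form in which C3 uses it. -/
theorem c2_exists_prime_le_liesOver (S R : Type*) [CommRing S] [IsDomain S] [IsIntegrallyClosed S]
    [CommRing R] [IsDomain R] [Algebra S R] [Algebra.IsIntegral S R] [FaithfulSMul S R]
    (q : Ideal S) [q.IsPrime] (m : Ideal R) [m.IsPrime] (hq : q ≤ m.comap (algebraMap S R)) :
    ∃ p : Ideal R, p.IsPrime ∧ p ≤ m ∧ p.comap (algebraMap S R) = q := by
  have hgd : Algebra.HasGoingDown S R := c2_hasGoingDown S R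
  have hlo : m.LiesOver (m.comap (algebraMap S R)) := ⟨rfl⟩
  obtain ⟨P, hPm, hP, hPq⟩ :=
    Ideal.exists_ideal_le_liesOver_of_le (p := q) (q := m.comap (algebraMap S R)) m hq
  exact ⟨P, hP, hPm, hPq.over.symm⟩

end Fermat.Agent.S26.Curves
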