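import Fermat.Agent.S26.Curves.C2
import Fermat.Agent.S26.Curves.H503.C3

/-!
# S26 / P8 CURVES, leaf L2 = C3 : affine curve selection

`c3_exists_prime_trdeg_one` : `K` algebraically closed, `R` a f.g. `K`-domain with `1 ≤ trdeg_K R`,
`m` a maximal ideal, `h ≠ 0`  `⟹`  there is a prime `p ≤ m` with `h ∉ p` and `trdeg_K (R ⧸ p) = 1`.

Proof.  Noether normalisation (`exists_finite_inj_algHom_of_fg`): `g : S = K[t_1..t_d] → R` injective, finite;
`d ≥ 1` because `trdeg ≥ 1`.  `n := m ∩ S` is maximal, so `n` = ideal of a point `a ∈ K^d` (Nullstellensatz,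
`MvPolynomial.isMaximal_iff_eq_vanishingIdeal_singleton`).  The constant term `c` of the minimal polynomial of `h`
over `Frac S` lies in `S` (`S` integrally closed), `c ≠ 0`, and `c ∈ h R`.  Choose `b ≠ a` such that `c` does not
vanish identically on the line `a + T (b - a)` (`K` is infinite).  `l := ker (S → K[T], t_i ↦ a_i + T (b_i - a_i))`
is a prime with `l ≤ n`, `c ∉ l`, `S ⧸ l ≃ K[T]`.  Going-down (leaf C2, `c2_exists_prime_le_liesOver`: this file imports the C2 skeleton, do not reprove it) gives a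
prime `p ≤ m` over `l`.
`h ∈ p → c ∈ p ∩ S = l`, contradiction.  `R ⧸ p` is integral over `S ⧸ l ≃ K[T]`, so its trdeg is `1`.
-/

set_option autoImplicit false

namespace Fermat.Agent.S26.Curves

theorem c3_exists_prime_trdeg_one (K R : Type*) [Field K] [IsAlgClosed K] [CommRing R] [IsDomain R]
    [Algebra K R] [Algebra.FiniteType K R] (hd : 1 ≤ Algebra.trdeg K R)
    (m : Ideal R) [m.IsMaximal] (h : R) (hh : h ≠ 0) :
    ∃ p : Ideal R, p.IsPrime ∧ p ≤ m ∧ h ∉ p ∧ Algebra.trdeg K (R ⧸ p) = 1 :=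
  -- delivered by helper503 (files `H503/*.lean`, namespace-wrapped verbatim); no `IsAlgClosed` needed
  H503.c3_exists_prime_trdeg_one K R hd m h hh

end Fermat.Agent.S26.Curves
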