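import Fermat.Agent.S26.Curves.H525.C45_h525

/-!
# S26 / P8 CURVES, leaf L4 = C4 : normalisation of an affine curve (algebra)

`K` algebraically closed, `R` a finitely generated `K`-domain with `trdeg_K R = 1`, `L` its fraction field.
Then the integral closure `R' = integralClosure R L` is a finite `R`-module, a Dedekind domain, a finitely
generated `K`-algebra, and `trdeg_K R' = 1`.

Proof: delivered by helper525 (`H525/C4_h525.lean`, `H525/C45_h525.lean`, namespace-wrapped verbatim):
finiteness of the integral closure over a perfect field by the Frobenius-twist argument (no separating
Noether normalisation is needed, so the former leaf C4a is CANCELLED), Dedekind from `trdeg ≤ 1`.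
The transcendence degree statement is added here.
-/

set_option autoImplicit false

namespace Fermat.Agent.S26.Curves

/-- C4: the integral closure of an affine curve in its function field. -/
theorem c4_integralClosure (K R L : Type*) [Field K] [IsAlgClosed K] [CommRing R] [IsDomain R]
    [Algebra K R] [Algebra.FiniteType K R] [Field L] [Algebra R L] [IsFractionRing R L]
    [Algebra K L] [IsScalarTower K R L] (hd : Algebra.trdeg K R = 1) :
    Module.Finite R (integralClosure R L) ∧ IsDedekindDomain (integralClosure R L) ∧
      Algebra.FiniteType K (integralClosure R L) ∧ Algebra.trdeg K (integralClosure R L) = 1 := by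
  obtain ⟨hfin, hded, -⟩ := H525.c4_finite_and_isDedekindDomain K R hd L
  refine ⟨hfin, hded, H525.c45_finiteType_integralClosure_of_perfect K R L, ?_⟩
  have hKR : FaithfulSMul K R :=
    (faithfulSMul_iff_algebraMap_injective K R).mpr (algebraMap K R).injective
  have hRR' : FaithfulSMul R (integralClosure R L) := inferInstance
  have halg : Algebra.IsAlgebraic R (integralClosure R L) := Algebra.IsIntegral.isAlgebraic
  have h := lift_trdeg_add_eq K R (integralClosure R L)
  rw [trdeg_eq_zero (R := R) (A := integralClosure R L), hd] at h
  simp only [Cardinal.lift_one, Cardinal.lift_zero, add_zero] at h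
  exact Cardinal.lift_eq_one.mp h.symm

end Fermat.Agent.S26.Curves
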