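import Mathlib

/-!
# S26 / P8 CURVES : package-local definitions (FROZEN for P8; tiny, Mathlib only)

`K`-schemes are morphisms `f : X ⟶ Spec (.of K)` (as in the frozen statement S26).
* `kToSections f U : K →+* Γ(X, U)`      the structure map on sections
* `kToFunctionField f : K →+* X.functionField`
* `trdegK f : Cardinal`                   transcendence degree over `K` of the function field of an integral `K`-scheme
-/

set_option autoImplicit false

universe u

open AlgebraicGeometry CategoryTheory

namespace Fermat.Agent.S26.Curves

variable {K : Type u} [Field K] {X : Scheme.{u}}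

/-- The structure map `K → Γ(X, U)` of a `K`-scheme. -/
noncomputable def kToSections (f : X ⟶ Spec (.of K)) (U : X.Opens) : K →+* Γ(X, U) :=
  ((Scheme.ΓSpecIso (.of K)).inv ≫ f.appTop ≫ X.presheaf.map (homOfLE le_top).op).hom

/-- The structure map `K → K(X)` of an integral `K`-scheme. -/
noncomputable def kToFunctionField (f : X ⟶ Spec (.of K)) [IsIntegral X] : K →+* X.functionField :=
  ((Scheme.ΓSpecIso (.of K)).inv ≫ f.appTop ≫
    X.presheaf.germ ⊤ (genericPoint X) trivial).hom

/-- Transcendence degree over `K` of the function field of an integral `K`-scheme. -/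
noncomputable def trdegK (f : X ⟶ Spec (.of K)) [IsIntegral X] : Cardinal.{u} :=
  letI := (kToFunctionField f).toAlgebra
  Algebra.trdeg K X.functionField

end Fermat.Agent.S26.Curves
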