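import Fermat.Agent.S26.Curves.S3
import Fermat.Agent.S26.TChainDefs
import Fermat.Agent.S26.TopA

/-!
# S26 / P8 CURVES : ADAPTER from the package export `curves_main'` (S3.lean) to the lead's frozen
P8 EXPORT `Fermat.Agent.S26.exists_curveProd_dominant` (TChain.lean)

`Fermat.Agent.S26.Curves.exists_curveProd_dominant` has EXACTLY the frozen signature of the lead's export.
Inputs (black boxes): `curves_main'` (P8, S3.lean) and `trdeg_FF` (P2 SETUP export 2, Top.lean).

* `exp_trdegK_eq`          : `trdegK f = Algebra.trdeg K (FF f)` (P8 `Defs` vs lead `Defs`)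
* `exp_curveSum_isCurveProd`, `exp_curveSum_smooth` : a `CurveSum` is an `IsCurveProd`, smooth over `K`
* `exp_pullFun_eq`         : for dominant `φ`, `pullFun φ` is the map of function fields
* `exp_isGenFiniteOfDegree`: dominant + equal finite transcendence degrees + locally of finite type
                             ⟹ `IsGenFiniteOfDegree`
-/

set_option autoImplicit false

universe u

open AlgebraicGeometry CategoryTheory CategoryTheory.Limits NeronModelInfra GoodReductionJacobian

namespace Fermat.Agent.S26.Curves

section Trdeg

variable {K : Type u} [Field K] {X : Scheme.{u}}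

/-- The two structure maps `K → K(X)` (P8 `kToFunctionField`, lead `constHom`) agree. -/
theorem exp_kToFunctionField_eq_constHom (f : X ⟶ Spec (CommRingCat.of K)) [IsIntegral X] :
    kToFunctionField f = constHom f := by
  ext c
  rfl

/-- `trdegK` (P8) is the transcendence degree of the lead's `FF`. -/
theorem exp_trdegK_eq (f : X ⟶ Spec (CommRingCat.of K)) [IsIntegral X] :
    trdegK f = Algebra.trdeg K (FF f) := by
  unfold trdegK
  rw [exp_kToFunctionField_eq_constHom]
  rfl

end Trdeg

section CurveSumProps

variable {K : Type u} [Field K] {A : Scheme.{u}} {f : A ⟶ Spec (CommRingCat.of K)}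

/-- A `CurveSum` (P8) is a product of smooth proper curves in the sense of the lead's `IsCurveProd`. -/
theorem exp_curveSum_isCurveProd (L : RelativeGroupLaw K f) {r : ℕ} {X : Scheme.{u}}
    {x : X ⟶ Spec (CommRingCat.of K)} {σ : SchemeHomOver x f}
    {x₀ : SchemeHomOver (𝟙 (Spec (CommRingCat.of K))) x} (h : CurveSum f L r x σ x₀) :
    IsCurveProd X x := by
  induction h with
  | zero => exact IsCurveProd.pt _ _ inferInstance
  | @succ r X x σ x₀ h C c hC hc hs j c₀ hc₀ ih =>
    refine IsCurveProd.prod C c X x ⟨hC, hc, hs⟩ ih _ _ (pullbackSymmetry x c) ?_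
    rw [prodS, pullbackSymmetry_hom_comp_fst_assoc, pullback.condition]

/-- The total space of a `CurveSum` is smooth over `K`. -/
theorem exp_curveSum_smooth (L : RelativeGroupLaw K f) {r : ℕ} {X : Scheme.{u}}
    {x : X ⟶ Spec (CommRingCat.of K)} {σ : SchemeHomOver x f}
    {x₀ : SchemeHomOver (𝟙 (Spec (CommRingCat.of K))) x} (h : CurveSum f L r x σ x₀) :
    Smooth x := by
  induction h with
  | zero => infer_instance
  | @succ r X x σ x₀ h C c hC hc hs j c₀ hc₀ ih =>
    have : Smooth c := SmoothOfRelativeDimension.smooth 1 c
    have : Smooth (pullback.fst x c) := inferInstance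
    infer_instance

end CurveSumProps

section GenFinite

variable {K : Type u} [Field K]

/-- A dominant morphism of integral schemes maps the generic point to the generic point. -/
theorem exp_map_genericPoint {X Y : Scheme.{u}} (φ : X ⟶ Y) [IsIntegral X] [IsIntegral Y]
    [IsDominant φ] : φ.base (genericPoint X) = genericPoint Y := by
  apply ((genericPoint_spec Y).eq _).symm
  have h := (genericPoint_spec X).image φ.continuous
  rw [Set.image_univ, φ.denseRange.closure_range] at h
  exact h

/-- The map of function fields induced by a dominant morphism of integral schemes. -/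
noncomputable def exp_functionFieldMap {X Y : Scheme.{u}} (φ : X ⟶ Y) [IsIntegral X]
    [IsIntegral Y] [IsDominant φ] : Y.functionField ⟶ X.functionField :=
  Y.presheaf.stalkSpecializes (specializes_of_eq (exp_map_genericPoint φ)) ≫
    φ.stalkMap (genericPoint X)

set_option backward.isDefEq.respectTransparency false in
/-- The map of function fields is compatible with the structure maps from `K`. -/
theorem exp_kToFunctionField_comp {X Y : Scheme.{u}} (φ : X ⟶ Y)
    (y : Y ⟶ Spec (CommRingCat.of K)) [IsIntegral X] [IsIntegral Y] [IsDominant φ] :
    kToFunctionField (φ ≫ y) = (exp_functionFieldMap φ).hom.comp (kToFunctionField y) := by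
  have key : Y.presheaf.germ ⊤ (genericPoint Y) trivial ≫ exp_functionFieldMap φ =
      φ.appTop ≫ X.presheaf.germ ⊤ (genericPoint X) trivial := by
    rw [exp_functionFieldMap, TopCat.Presheaf.germ_stalkSpecializes_assoc,
      Scheme.Hom.germ_stalkMap]
    rfl
  rw [kToFunctionField, kToFunctionField, ← CommRingCat.hom_comp]
  congr 1
  rw [Scheme.Hom.comp_appTop, Category.assoc, Category.assoc, Category.assoc, key]

/-- The two specialisation maps between `K(Y)` and the stalk at `φ(η_X) = η_Y` are inverse to each other (1). -/
theorem exp_specializes_left {X Y : Scheme.{u}} (φ : X ⟶ Y) [IsIntegral X] [IsIntegral Y]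
    [IsDominant φ] (w : Y.presheaf.stalk (φ.base (genericPoint X))) :
    (Y.presheaf.stalkSpecializes (specializes_of_eq (exp_map_genericPoint φ))).hom
      (algebraMap (Y.presheaf.stalk (φ.base (genericPoint X))) Y.functionField w) = w := by
  have h := Y.presheaf.stalkSpecializes_comp (specializes_of_eq (exp_map_genericPoint φ))
    ((genericPoint_spec Y).specializes (y := φ.base (genericPoint X)) trivial)
  rw [show (specializes_of_eq (exp_map_genericPoint φ)).trans
      ((genericPoint_spec Y).specializes (y := φ.base (genericPoint X)) trivial) =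
      specializes_refl _ from rfl, TopCat.Presheaf.stalkSpecializes_refl] at h
  exact congrArg (fun m => m.hom w) h

/-- The two specialisation maps between `K(Y)` and the stalk at `φ(η_X) = η_Y` are inverse to each other (2). -/
theorem exp_specializes_right {X Y : Scheme.{u}} (φ : X ⟶ Y) [IsIntegral X] [IsIntegral Y]
    [IsDominant φ] (v : Y.functionField) :
    algebraMap (Y.presheaf.stalk (φ.base (genericPoint X))) Y.functionField
      ((Y.presheaf.stalkSpecializes (specializes_of_eq (exp_map_genericPoint φ))).hom v) = v := by
  have h := Y.presheaf.stalkSpecializes_comp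
    ((genericPoint_spec Y).specializes (y := φ.base (genericPoint X)) trivial)
    (specializes_of_eq (exp_map_genericPoint φ))
  rw [show ((genericPoint_spec Y).specializes (y := φ.base (genericPoint X)) trivial).trans
      (specializes_of_eq (exp_map_genericPoint φ)) =
      specializes_refl _ from rfl, TopCat.Presheaf.stalkSpecializes_refl] at h
  exact congrArg (fun m => m.hom v) h

/-- For a dominant morphism, the lead's `pullFun` is the map of function fields. -/
theorem exp_pullFun_eq {X Y : Scheme.{u}} (φ : X ⟶ Y) [IsIntegral X] [IsIntegral Y]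
    [IsDominant φ] (v : Y.functionField) :
    pullFun φ v = (exp_functionFieldMap φ).hom v := by
  have hmem : v ∈ localRing Y (φ.base (genericPoint X)) :=
    ⟨_, exp_specializes_right φ v⟩
  unfold pullFun
  rw [dif_pos hmem]
  have hc := Classical.choose_spec hmem
  have h2 := exp_specializes_left φ (Classical.choose hmem)
  rw [hc] at h2
  rw [exp_functionFieldMap, CommRingCat.hom_comp, RingHom.comp_apply, h2]

/-- A dominant morphism, locally of finite type, between integral `K`-schemes whose function fields have the
same finite transcendence degree over `K` is generically finite. -/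
theorem exp_isGenFiniteOfDegree {X A : Scheme.{u}} [IsIntegral X] [IsIntegral A]
    (f : A ⟶ Spec (CommRingCat.of K)) (σ : X ⟶ A) [IsDominant σ] [LocallyOfFiniteType σ]
    (g : ℕ) (hx : trdegK (σ ≫ f) = g) (hf : trdegK f = g) :
    ∃ N : ℕ, IsGenFiniteOfDegree σ N := by
  let j : A.functionField →+* X.functionField := (exp_functionFieldMap σ).hom
  let algj : Algebra A.functionField X.functionField := j.toAlgebra
  have hfin : Module.Finite A.functionField X.functionField := by
    let algKF : Algebra K A.functionField := (kToFunctionField f).toAlgebra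
    let algKE : Algebra K X.functionField := (kToFunctionField (σ ≫ f)).toAlgebra
    have tower : IsScalarTower K A.functionField X.functionField :=
      IsScalarTower.of_algebraMap_eq' (exp_kToFunctionField_comp σ f)
    have h := trdeg_add_eq K A.functionField (A := X.functionField)
    have hx' : Algebra.trdeg K X.functionField = g := hx
    have hf' : Algebra.trdeg K A.functionField = g := hf
    rw [hx', hf'] at h
    have h0 : Algebra.trdeg A.functionField X.functionField = 0 := by
      have h1 : (g : Cardinal.{u}) + Algebra.trdeg A.functionField X.functionField =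
          (g : Cardinal.{u}) + 0 := by rw [h, add_zero]
      exact Cardinal.eq_of_add_eq_add_left h1 (Cardinal.natCast_lt_aleph0 (n := g))
    have halg : Algebra.IsAlgebraic A.functionField X.functionField :=
      trdeg_eq_zero_iff.mp h0
    have hess : Algebra.EssFiniteType A.functionField X.functionField := by
      have h1 : (σ.stalkMap (genericPoint X)).hom.EssFiniteType :=
        LocallyOfFiniteType.stalkMap (f := σ) (genericPoint X)
      have h2 : (A.presheaf.stalkSpecializes
          (specializes_of_eq (exp_map_genericPoint σ))).hom.EssFiniteType :=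
        (RingHom.FiniteType.of_surjective _ (fun w => ⟨_, exp_specializes_left σ w⟩)).essFiniteType
      exact h2.comp h1
    exact Algebra.finite_of_essFiniteType_of_isAlgebraic
  exact ⟨Module.finrank A.functionField X.functionField, exp_map_genericPoint σ, j,
    fun v => (exp_pullFun_eq σ v).symm, hfin, rfl⟩

end GenFinite

section Main

open Fermat.Agent.S26

variable {K : Type u} [Field K] [IsAlgClosed K] {A : Scheme.{u}}
  {f : A ⟶ Spec (CommRingCat.of K)}

/-- **P8 EXPORT in the lead's frozen shape** (`Fermat.Agent.S26.exists_curveProd_dominant`, TChain.lean):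
there is a pointed product of smooth proper curves with a dominant, generically finite morphism to `A`
sending the base point to the origin.  Proved from `curves_main'` (S3.lean) and `trdeg_FF` (P2 SETUP). -/
theorem exists_curveProd_dominant (L : RelativeGroupLaw K f) (hc : L.IsCommutative)
    (hA : AbelianSchemePropertyBundle K f) (g : ℕ) [SmoothOfRelativeDimension g f]
    [IsIntegral A] :
    ∃ (X : Scheme.{u}) (sX : X ⟶ Spec (CommRingCat.of K)) (_ : IsIntegral X)
      (x₀ : Pts sX) (σ : X ⟶ A) (N : ℕ),
      IsCurveProd X sX ∧ IsProper sX ∧ Smooth sX ∧ σ ≫ f = sX ∧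
        x₀.1 ≫ σ = (L.one (𝟙 _)).1 ∧ IsGenFiniteOfDegree σ N := by
  have hprop : IsProper f := hA.proper
  have hg : trdegK f = g := (exp_trdegK_eq f).trans (trdeg_FF L hA g)
  obtain ⟨X, x, ⟨σ, hσ⟩, x₀, hX, hsum, hdom, hxprop, htr, hbase⟩ := curves_main' f L g hg
  subst hσ
  have hdom' : IsDominant σ := hdom
  have hlft : LocallyOfFiniteType σ := locallyOfFiniteType_of_comp σ f
  obtain ⟨N, hN⟩ := exp_isGenFiniteOfDegree f σ g htr hg
  exact ⟨X, σ ≫ f, hX, x₀, σ, N, exp_curveSum_isCurveProd L hsum, hxprop,
    exp_curveSum_smooth L hsum, rfl, hbase, hN⟩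

end Main

end Fermat.Agent.S26.Curves
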