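import Fermat.Agent.S26.Curves.Sum
import Fermat.Agent.S26.Curves.G4a
import Fermat.Agent.S26.Curves.G4b

/-!
# S26 / P8 CURVES, leaf L12 = S2 : elementary properties of the sum map and of `CurveSum`

Functor-of-points computations with `RelativeGroupLaw` (`mul_natural`, `one_natural`, `one_mul`, `mul_one`):
* `s2_pairPt_addHom`      : `(x₀, c₀) ↦ σ x₀ + ι c₀ = e + e = e`
* `s2_range_subset_left`  : `σ = addHom ∘ (id, c₀)`  (because `ι c₀ = e`), hence `range σ ⊆ range (addHom)`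
* `s2_range_subset_right` : `ι = addHom ∘ (x₀, id)`  (because `σ x₀ = e`), hence `range ι ⊆ range (addHom)`
* `s2_curveSum_base`      : `σ x₀ = e` for every `CurveSum`
* `s2_curveSum_props`     : the total space of a `CurveSum` is integral and proper over `K`
                            (induction; `g4_isIntegral_pullback` from the G4b skeleton; properness is stable under
                            base change and composition).
-/

set_option autoImplicit false

universe u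

open AlgebraicGeometry CategoryTheory CategoryTheory.Limits NeronModelInfra GoodReductionJacobian

namespace Fermat.Agent.S26.Curves

variable {K : Type u} [Field K] {A : Scheme.{u}} {f : A ⟶ Spec (CommRingCat.of K)}

theorem s2_pairPt_addHom (L : RelativeGroupLaw K f) {X C : Scheme.{u}}
    (x : X ⟶ Spec (CommRingCat.of K)) (σ : SchemeHomOver x f)
    (c : C ⟶ Spec (CommRingCat.of K)) (ι : SchemeHomOver c f)
    (x₀ : SchemeHomOver (𝟙 (Spec (CommRingCat.of K))) x)
    (c₀ : SchemeHomOver (𝟙 (Spec (CommRingCat.of K))) c)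
    (hx₀ : x₀.1 ≫ σ.1 = (L.one (𝟙 (Spec (CommRingCat.of K)))).1)
    (hc₀ : c₀.1 ≫ ι.1 = (L.one (𝟙 (Spec (CommRingCat.of K)))).1) :
    (pairPt x c x₀ c₀).1 ≫ (addHom L x σ c ι).1 = (L.one (𝟙 (Spec (CommRingCat.of K)))).1 := by
  have h := L.mul_natural (pullback.fst x c ≫ x) (𝟙 (Spec (CommRingCat.of K)))
    (pairPt x c x₀ c₀).1 (pairPt x c x₀ c₀).2
    ⟨pullback.fst x c ≫ σ.1, by rw [Category.assoc, σ.2]⟩
    ⟨pullback.snd x c ≫ ι.1, by rw [Category.assoc, ι.2, pullback.condition]⟩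
  have h1 : schemeHomOverComp (pairPt x c x₀ c₀).1 (pairPt x c x₀ c₀).2
      (⟨pullback.fst x c ≫ σ.1, by rw [Category.assoc, σ.2]⟩ :
        SchemeHomOver (pullback.fst x c ≫ x) f) = L.one (𝟙 (Spec (CommRingCat.of K))) := by
    apply Subtype.ext
    show pullback.lift x₀.1 c₀.1 _ ≫ pullback.fst x c ≫ σ.1 = _
    rw [pullback.lift_fst_assoc, hx₀]
  have h2 : schemeHomOverComp (pairPt x c x₀ c₀).1 (pairPt x c x₀ c₀).2
      (⟨pullback.snd x c ≫ ι.1, by rw [Category.assoc, ι.2, pullback.condition]⟩ :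
        SchemeHomOver (pullback.fst x c ≫ x) f) = L.one (𝟙 (Spec (CommRingCat.of K))) := by
    apply Subtype.ext
    show pullback.lift x₀.1 c₀.1 _ ≫ pullback.snd x c ≫ ι.1 = _
    rw [pullback.lift_snd_assoc, hc₀]
  rw [h1, h2, L.one_mul] at h
  exact congrArg Subtype.val h

theorem s2_range_subset_left (L : RelativeGroupLaw K f) {X C : Scheme.{u}}
    (x : X ⟶ Spec (CommRingCat.of K)) (σ : SchemeHomOver x f)
    (c : C ⟶ Spec (CommRingCat.of K)) (ι : SchemeHomOver c f)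
    (c₀ : SchemeHomOver (𝟙 (Spec (CommRingCat.of K))) c)
    (hc₀ : c₀.1 ≫ ι.1 = (L.one (𝟙 (Spec (CommRingCat.of K)))).1) :
    Set.range σ.1 ⊆ Set.range (addHom L x σ c ι).1 := by
  have hw : 𝟙 X ≫ x = (x ≫ c₀.1) ≫ c := by
    rw [Category.id_comp, Category.assoc, c₀.2, Category.comp_id]
  have hj : pullback.lift (𝟙 X) (x ≫ c₀.1) hw ≫ pullback.fst x c ≫ x = x := by
    rw [pullback.lift_fst_assoc, Category.id_comp]
  have h := L.mul_natural (pullback.fst x c ≫ x) x (pullback.lift (𝟙 X) (x ≫ c₀.1) hw) hj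
    ⟨pullback.fst x c ≫ σ.1, by rw [Category.assoc, σ.2]⟩
    ⟨pullback.snd x c ≫ ι.1, by rw [Category.assoc, ι.2, pullback.condition]⟩
  have h1 : schemeHomOverComp (pullback.lift (𝟙 X) (x ≫ c₀.1) hw) hj
      (⟨pullback.fst x c ≫ σ.1, by rw [Category.assoc, σ.2]⟩ :
        SchemeHomOver (pullback.fst x c ≫ x) f) = σ := by
    apply Subtype.ext
    show pullback.lift (𝟙 X) (x ≫ c₀.1) hw ≫ pullback.fst x c ≫ σ.1 = σ.1
    rw [pullback.lift_fst_assoc, Category.id_comp]
  have h2 : schemeHomOverComp (pullback.lift (𝟙 X) (x ≫ c₀.1) hw) hj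
      (⟨pullback.snd x c ≫ ι.1, by rw [Category.assoc, ι.2, pullback.condition]⟩ :
        SchemeHomOver (pullback.fst x c ≫ x) f) = L.one x := by
    rw [← L.one_natural (𝟙 (Spec (CommRingCat.of K))) x x (Category.comp_id x)]
    apply Subtype.ext
    show pullback.lift (𝟙 X) (x ≫ c₀.1) hw ≫ pullback.snd x c ≫ ι.1 = x ≫ _
    rw [pullback.lift_snd_assoc, Category.assoc, hc₀]
  rw [h1, h2, L.mul_one] at h
  have h3 : pullback.lift (𝟙 X) (x ≫ c₀.1) hw ≫ (addHom L x σ c ι).1 = σ.1 :=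
    congrArg Subtype.val h
  rw [← h3]
  rintro _ ⟨a, rfl⟩
  exact ⟨pullback.lift (𝟙 X) (x ≫ c₀.1) hw a, by simp⟩

theorem s2_range_subset_right (L : RelativeGroupLaw K f) {X C : Scheme.{u}}
    (x : X ⟶ Spec (CommRingCat.of K)) (σ : SchemeHomOver x f)
    (c : C ⟶ Spec (CommRingCat.of K)) (ι : SchemeHomOver c f)
    (x₀ : SchemeHomOver (𝟙 (Spec (CommRingCat.of K))) x)
    (hx₀ : x₀.1 ≫ σ.1 = (L.one (𝟙 (Spec (CommRingCat.of K)))).1) :
    Set.range ι.1 ⊆ Set.range (addHom L x σ c ι).1 := by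
  have hw : (c ≫ x₀.1) ≫ x = 𝟙 C ≫ c := by
    rw [Category.id_comp, Category.assoc, x₀.2, Category.comp_id]
  have hj : pullback.lift (c ≫ x₀.1) (𝟙 C) hw ≫ pullback.fst x c ≫ x = c := by
    rw [pullback.lift_fst_assoc, Category.assoc, x₀.2, Category.comp_id]
  have h := L.mul_natural (pullback.fst x c ≫ x) c (pullback.lift (c ≫ x₀.1) (𝟙 C) hw) hj
    ⟨pullback.fst x c ≫ σ.1, by rw [Category.assoc, σ.2]⟩
    ⟨pullback.snd x c ≫ ι.1, by rw [Category.assoc, ι.2, pullback.condition]⟩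
  have h1 : schemeHomOverComp (pullback.lift (c ≫ x₀.1) (𝟙 C) hw) hj
      (⟨pullback.fst x c ≫ σ.1, by rw [Category.assoc, σ.2]⟩ :
        SchemeHomOver (pullback.fst x c ≫ x) f) = L.one c := by
    rw [← L.one_natural (𝟙 (Spec (CommRingCat.of K))) c c (Category.comp_id c)]
    apply Subtype.ext
    show pullback.lift (c ≫ x₀.1) (𝟙 C) hw ≫ pullback.fst x c ≫ σ.1 = c ≫ _
    rw [pullback.lift_fst_assoc, Category.assoc, hx₀]
  have h2 : schemeHomOverComp (pullback.lift (c ≫ x₀.1) (𝟙 C) hw) hj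
      (⟨pullback.snd x c ≫ ι.1, by rw [Category.assoc, ι.2, pullback.condition]⟩ :
        SchemeHomOver (pullback.fst x c ≫ x) f) = ι := by
    apply Subtype.ext
    show pullback.lift (c ≫ x₀.1) (𝟙 C) hw ≫ pullback.snd x c ≫ ι.1 = ι.1
    rw [pullback.lift_snd_assoc, Category.id_comp]
  rw [h1, h2, L.one_mul] at h
  have h3 : pullback.lift (c ≫ x₀.1) (𝟙 C) hw ≫ (addHom L x σ c ι).1 = ι.1 :=
    congrArg Subtype.val h
  rw [← h3]
  rintro _ ⟨a, rfl⟩
  exact ⟨pullback.lift (c ≫ x₀.1) (𝟙 C) hw a, by simp⟩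

theorem s2_curveSum_base (L : RelativeGroupLaw K f) {r : ℕ} {X : Scheme.{u}}
    {x : X ⟶ Spec (CommRingCat.of K)} {σ : SchemeHomOver x f}
    {x₀ : SchemeHomOver (𝟙 (Spec (CommRingCat.of K))) x} (h : CurveSum f L r x σ x₀) :
    x₀.1 ≫ σ.1 = (L.one (𝟙 (Spec (CommRingCat.of K)))).1 := by
  induction h with
  | zero => exact Category.id_comp _
  | succ h c hC hc hs ι c₀ hc₀ ih => exact s2_pairPt_addHom L _ _ c ι _ c₀ ih hc₀

/-- The total space of a `CurveSum` is integral and proper over `K`. -/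
theorem s2_curveSum_props [IsAlgClosed K] (L : RelativeGroupLaw K f) {r : ℕ} {X : Scheme.{u}}
    {x : X ⟶ Spec (CommRingCat.of K)} {σ : SchemeHomOver x f}
    {x₀ : SchemeHomOver (𝟙 (Spec (CommRingCat.of K))) x} (h : CurveSum f L r x σ x₀) :
    IsIntegral X ∧ IsProper x := by
  induction h with
  | zero => exact ⟨inferInstance, inferInstance⟩
  | @succ r X x σ x₀ h C c hC hc hs ι c₀ hc₀ ih =>
    obtain ⟨hX, hx⟩ := ih
    have hint : IsIntegral (pullback x c) := g4_isIntegral_pullback x c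
    exact ⟨hint, inferInstance⟩

end Fermat.Agent.S26.Curves
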