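import Fermat.Agent.S26.Curves.S2
import Fermat.Agent.S26.Curves.G1
import Fermat.Agent.S26.Curves.G2
import Fermat.Agent.S26.Curves.G3
import Fermat.Agent.S26.Curves.G5

/-!
# S26 / P8 CURVES, leaf L13 = S3 : the induction and the EXPORT of the package

`curves_main` : `K` algebraically closed, `f : A → Spec K` proper, `A` integral, with a group law `L`,
`trdegK f = g`.  Then there is a `CurveSum f L g x σ x₀` with `σ` dominant.

Proof (see notes/S26/P8_BOARD.md, "Proof architecture").  Invariant for `r ≤ g`: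
  `∃ X x σ x₀, CurveSum f L r x σ x₀ ∧ CurveSumTrdegLe ... ∧
     ∀ B (j : B ⟶ A) [IsIntegral B] [IsClosedImmersion j], range j = closure (range σ) → r ≤ trdegK (j ≫ f)`.
Step `r → r+1` (`r < g`): `B_r` := `g5_image σ`; `trdegK B_r ≤ trdegK X ≤ r < g` (`g4_trdegK_le_of_isDominant`,
`s3_trdegK_le`), so `range j_r ≠ univ` (`g4_trdegK_le_of_isDominant` for a surjective `j_r`); `g1_exists_curve` at the
closed point `e`; `g2_exists_smooth_proper_model`; `g3_exists_point_over`; `CurveSum.succ`;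
`B_r ⊆ B_{r+1}`, `Γ ⊆ B_{r+1}` (`s2_range_subset_left/right`), `g5_lift`, `g5_trdegK_lt`.
End: `trdegK B_g ≥ g = trdegK A` ⟹ `range j_g = univ` (`g5_trdegK_lt`) ⟹ `σ` dominant.
All leaves are imported as skeletons: do not reprove them here.

Proved by helper3584 (the statements `s3_trdegK_addHom_le`, `curves_main`, `curves_main'` are the frozen v1 ones;
`curves_main` is deduced from `curves_main'`, so it comes second in the file).
-/

set_option autoImplicit false

universe u

open AlgebraicGeometry CategoryTheory CategoryTheory.Limits NeronModelInfra GoodReductionJacobian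

namespace Fermat.Agent.S26.Curves

variable {K : Type u} [Field K] {A : Scheme.{u}} {f : A ⟶ Spec (CommRingCat.of K)}

theorem s3_trdegK_congr {X : Scheme.{u}} [IsIntegral X] {x x' : X ⟶ Spec (CommRingCat.of K)}
    (h : x = x') : trdegK x = trdegK x' := by
  subst h; rfl

/-- The function field of `Spec K` is algebraic over `K`. -/
theorem s3_trdegK_id_le : trdegK (𝟙 (Spec (CommRingCat.of K))) ≤ ((0 : ℕ) : Cardinal.{u}) := by
  rw [g4_trdegK_eq_of_isAffineOpen (𝟙 (Spec (CommRingCat.of K))) ⊤ (isAffineOpen_top _)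
    ⟨IsLocalRing.closedPoint K, trivial⟩]
  let _ := (kToSections (𝟙 (Spec (CommRingCat.of K))) ⊤).toAlgebra
  have hsurj : Function.Surjective (algebraMap K Γ(Spec (CommRingCat.of K), ⊤)) := by
    show Function.Surjective (kToSections (𝟙 (Spec (CommRingCat.of K))) ⊤)
    unfold kToSections
    have h0 : homOfLE (le_top : (⊤ : (Spec (CommRingCat.of K)).Opens) ≤ ⊤) = 𝟙 _ :=
      Subsingleton.elim _ _
    have : IsIso ((Scheme.ΓSpecIso (CommRingCat.of K)).inv ≫
        Scheme.Hom.appTop (𝟙 (Spec (CommRingCat.of K))) ≫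
        (Spec (CommRingCat.of K)).presheaf.map
          (homOfLE (le_top : (⊤ : (Spec (CommRingCat.of K)).Opens) ≤ ⊤)).op) := by
      rw [h0]
      simp only [Scheme.Hom.id_appTop, op_id, CategoryTheory.Functor.map_id, Category.comp_id]
      infer_instance
    exact ((ConcreteCategory.isIso_iff_bijective _).mp this).2
  have h1 : Algebra.IsIntegral K Γ(Spec (CommRingCat.of K), ⊤) :=
    Algebra.isIntegral_of_surjective hsurj
  have h2 : Algebra.IsAlgebraic K Γ(Spec (CommRingCat.of K), ⊤) := Algebra.IsIntegral.isAlgebraic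
  rw [trdeg_eq_zero]
  simp

/-- The image of the closed point under a `K`-point is a closed point. -/
theorem s3_range_point_subset {Y : Scheme.{u}} (e : Spec (CommRingCat.of K) ⟶ Y) :
    Set.range e ⊆ {e (IsLocalRing.closedPoint K)} := by
  rintro _ ⟨y, rfl⟩
  have : y = IsLocalRing.closedPoint K := Subsingleton.elim _ _
  rw [this]; rfl


/-- The transcendence degree of the total space of a `CurveSum` of length `r`, all of whose curves have
function fields of transcendence degree `≤ 1`, is at most `r`.  (`trdegK c ≤ 1` holds for every integral curve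
smooth of relative dimension 1, but we only need it for the curves produced by `g2`, which come with
`trdegK = 1`; therefore the main induction carries the bound itself in its invariant.) -/
theorem s3_trdegK_addHom_le [IsAlgClosed K] {X C : Scheme.{u}}
    (x : X ⟶ Spec (CommRingCat.of K)) (c : C ⟶ Spec (CommRingCat.of K))
    [LocallyOfFiniteType x] [LocallyOfFiniteType c] [IsIntegral X] [IsIntegral C]
    [IsIntegral (pullback x c)] (r : ℕ) (hx : trdegK x ≤ r) (hc : trdegK c = 1) :
    trdegK (pullback.fst x c ≫ x) ≤ (r + 1 : ℕ) := by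
  refine (g4_trdegK_pullback_le x c).trans ?_
  rw [hc]
  push_cast
  gcongr

/-- The invariant of the induction. -/
def s3_Inv (f : A ⟶ Spec (CommRingCat.of K)) (L : RelativeGroupLaw K f) (r : ℕ) : Prop :=
  ∃ (X : Scheme.{u}) (x : X ⟶ Spec (CommRingCat.of K)) (σ : SchemeHomOver x f)
    (x₀ : SchemeHomOver (𝟙 (Spec (CommRingCat.of K))) x) (_ : IsIntegral X),
    CurveSum f L r x σ x₀ ∧ trdegK x ≤ (r : Cardinal.{u}) ∧
      ∀ (B : Scheme.{u}) (j : B ⟶ A) (_ : IsIntegral B), IsClosedImmersion j →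
        Set.range j = closure (Set.range σ.1) → (r : Cardinal.{u}) ≤ trdegK (j ≫ f)

theorem s3_inv_zero (f : A ⟶ Spec (CommRingCat.of K)) (L : RelativeGroupLaw K f) :
    s3_Inv f L 0 := by
  refine ⟨Spec (CommRingCat.of K), 𝟙 _, L.one (𝟙 _), ⟨𝟙 _, Category.id_comp _⟩, inferInstance,
    CurveSum.zero, s3_trdegK_id_le, ?_⟩
  intro B j _ _ _
  simp

theorem s3_inv_succ [IsAlgClosed K] (f : A ⟶ Spec (CommRingCat.of K)) (L : RelativeGroupLaw K f)
    [IsProper f] [IsIntegral A] (g : ℕ) (hg : trdegK f = g) (r : ℕ) (hr : r < g)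
    (h : s3_Inv f L r) : s3_Inv f L (r + 1) := by
  obtain ⟨X, x, σ, x₀, hX, hcs, hxr, hB⟩ := h
  obtain ⟨-, hxp⟩ := s2_curveSum_props L hcs
  have hx₀ := s2_curveSum_base L hcs
  -- the closure of the image of `σ`
  have hσp : IsProper σ.1 := by
    have : IsProper (σ.1 ≫ f) := by rw [σ.2]; exact hxp
    exact IsProper.of_comp σ.1 f
  obtain ⟨B, j, ψ, hBi, hj, hψ, hψj, hjr⟩ := g5_image σ.1
  have hBle : trdegK (j ≫ f) ≤ (r : Cardinal.{u}) := by
    refine (g4_trdegK_le_of_isDominant ψ (j ≫ f)).trans ?_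
    rw [s3_trdegK_congr (x' := x) (by rw [← Category.assoc, hψj, σ.2])]
    exact hxr
  have hjne : Set.range j ≠ Set.univ := by
    intro hu
    have : IsDominant j := ⟨by rw [DenseRange, hu]; exact dense_univ⟩
    have h1 := g4_trdegK_le_of_isDominant j f
    rw [hg] at h1
    have h2 := h1.trans hBle
    exact absurd (Nat.cast_le.mp h2) (not_le.mpr hr)
  -- the unit point
  set e : Spec (CommRingCat.of K) ⟶ A := (L.one (𝟙 (Spec (CommRingCat.of K)))).1 with he
  have hef : e ≫ f = 𝟙 _ := (L.one (𝟙 (Spec (CommRingCat.of K)))).2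
  have hecl : IsClosedImmersion e := by
    have : IsClosedImmersion (e ≫ f) := by rw [hef]; infer_instance
    exact IsClosedImmersion.of_comp e f
  set e₀ : A := e (IsLocalRing.closedPoint K) with he₀
  have hre : Set.range e = {e₀} :=
    Set.Subset.antisymm (s3_range_point_subset e) (by rintro _ rfl; exact ⟨_, rfl⟩)
  have hcl : IsClosed ({e₀} : Set A) := by
    rw [← hre]; exact e.isClosedEmbedding.isClosed_range
  have hg1 : 1 ≤ trdegK f := by
    rw [hg]; exact_mod_cast (Nat.succ_le_of_lt (Nat.zero_lt_of_lt hr))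
  -- a curve through the unit point, not contained in the closure of the image of `σ`
  obtain ⟨Γ, jΓ, hΓi, hjΓ, heΓ, hΓZ, hΓd⟩ :=
    g1_exists_curve f hg1 e₀ hcl (Set.range j) j.isClosedEmbedding.isClosed_range hjne
  obtain ⟨p, hp⟩ := g5_lift e jΓ (by rw [hre]; exact Set.singleton_subset_iff.mpr heΓ)
  have hpγ : p ≫ (jΓ ≫ f) = 𝟙 _ := by rw [← Category.assoc, hp, hef]
  -- its smooth proper model
  obtain ⟨C, ν, hCi, hνf, hνs, hνp, hνsm, hνd⟩ := g2_exists_smooth_proper_model (jΓ ≫ f) hΓd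
  obtain ⟨c₀', hc₀'⟩ := g3_exists_point_over ν (jΓ ≫ f) p hpγ
  let c : C ⟶ Spec (CommRingCat.of K) := ν ≫ jΓ ≫ f
  let ι : SchemeHomOver c f := ⟨ν ≫ jΓ, by simp [c]⟩
  let c₀ : SchemeHomOver (𝟙 (Spec (CommRingCat.of K))) c :=
    ⟨c₀', by rw [← Category.assoc, hc₀', hpγ]⟩
  have hc₀ : c₀.1 ≫ ι.1 = (L.one (𝟙 (Spec (CommRingCat.of K)))).1 := by
    show c₀' ≫ ν ≫ jΓ = e
    rw [← Category.assoc, hc₀', hp]
  have hcs' := CurveSum.succ hcs c hCi hνp hνsm ι c₀ hc₀
  obtain ⟨hX', hxp'⟩ := s2_curveSum_props L hcs'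
  refine ⟨_, _, _, _, hX', hcs', ?_, ?_⟩
  · exact_mod_cast s3_trdegK_addHom_le x c r hxr hνd
  · intro B' j' hB' hj' hj'r
    have hsub : Set.range j ⊆ Set.range j' := by
      rw [hjr, hj'r]; exact closure_mono (s2_range_subset_left L x σ c ι c₀ hc₀)
    obtain ⟨l, hl⟩ := g5_lift j j' hsub
    have hlcl : IsClosedImmersion l := by
      have : IsClosedImmersion (l ≫ j') := by rw [hl]; exact hj
      exact IsClosedImmersion.of_comp l j'
    have hlne : Set.range l ≠ Set.univ := by
      intro hu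
      apply hΓZ
      have h1 : Set.range jΓ ⊆ Set.range j' := by
        rw [hj'r]
        refine subset_trans ?_
          (subset_trans (s2_range_subset_right L x σ c ι x₀ hx₀) subset_closure)
        rintro _ ⟨y, rfl⟩
        obtain ⟨z, rfl⟩ := ν.surjective y
        exact ⟨z, rfl⟩
      have h2 : Set.range j' ⊆ Set.range j := by
        rintro _ ⟨y, rfl⟩
        obtain ⟨z, rfl⟩ : y ∈ Set.range l := by rw [hu]; trivial
        exact ⟨z, by rw [← hl]; rfl⟩
      exact h1.trans h2
    have hlt := g5_trdegK_lt (j' ≫ f) l hlne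
    rw [s3_trdegK_congr (x' := j ≫ f) (by rw [← Category.assoc, hl])] at hlt
    have := (hB B j hBi hj hjr).trans_lt hlt
    push_cast
    exact Cardinal.add_one_le_of_lt this


theorem s3_inv_all [IsAlgClosed K] (f : A ⟶ Spec (CommRingCat.of K)) (L : RelativeGroupLaw K f)
    [IsProper f] [IsIntegral A] (g : ℕ) (hg : trdegK f = g) (r : ℕ) (hr : r ≤ g) :
    s3_Inv f L r := by
  induction r with
  | zero => exact s3_inv_zero f L
  | succ r ih => exact s3_inv_succ f L g hg r (Nat.lt_of_succ_le hr) (ih (Nat.le_of_succ_le hr))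

/-- EXPORT, with the by-products needed downstream (generic finiteness of `σ`). -/
theorem curves_main' [IsAlgClosed K] (f : A ⟶ Spec (CommRingCat.of K)) (L : RelativeGroupLaw K f)
    [IsProper f] [IsIntegral A] (g : ℕ) (hg : trdegK f = g) :
    ∃ (X : Scheme.{u}) (x : X ⟶ Spec (CommRingCat.of K)) (σ : SchemeHomOver x f)
      (x₀ : SchemeHomOver (𝟙 (Spec (CommRingCat.of K))) x) (_ : IsIntegral X),
      CurveSum f L g x σ x₀ ∧ IsDominant σ.1 ∧ IsProper x ∧ trdegK x = g ∧
        x₀.1 ≫ σ.1 = (L.one (𝟙 (Spec (CommRingCat.of K)))).1 := by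
  obtain ⟨X, x, σ, x₀, hX, hcs, hxr, hB⟩ := s3_inv_all f L g hg g le_rfl
  obtain ⟨-, hxp⟩ := s2_curveSum_props L hcs
  have hσp : IsProper σ.1 := by
    have : IsProper (σ.1 ≫ f) := by rw [σ.2]; exact hxp
    exact IsProper.of_comp σ.1 f
  obtain ⟨B, j, ψ, hBi, hj, hψ, hψj, hjr⟩ := g5_image σ.1
  have hdom : IsDominant σ.1 := by
    by_contra hnd
    have hjne : Set.range j ≠ Set.univ := by
      intro hu
      apply hnd
      refine ⟨?_⟩
      rw [DenseRange, dense_iff_closure_eq, ← hjr, hu]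
    have hlt := g5_trdegK_lt f j hjne
    rw [hg] at hlt
    exact absurd (hB B j hBi hj hjr) (not_le.mpr hlt)
  refine ⟨X, x, σ, x₀, hX, hcs, hdom, hxp, le_antisymm hxr ?_, s2_curveSum_base L hcs⟩
  rw [← hg, s3_trdegK_congr σ.2.symm]
  exact g4_trdegK_le_of_isDominant σ.1 f

/-- **EXPORT of P8 CURVES.** -/
theorem curves_main [IsAlgClosed K] (f : A ⟶ Spec (CommRingCat.of K)) (L : RelativeGroupLaw K f)
    [IsProper f] [IsIntegral A] (g : ℕ) (hg : trdegK f = g) :
    ∃ (X : Scheme.{u}) (x : X ⟶ Spec (CommRingCat.of K)) (σ : SchemeHomOver x f)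
      (x₀ : SchemeHomOver (𝟙 (Spec (CommRingCat.of K))) x),
      CurveSum f L g x σ x₀ ∧ IsDominant σ.1 := by
  obtain ⟨X, x, σ, x₀, -, hcs, hdom, -⟩ := curves_main' f L g hg
  exact ⟨X, x, σ, x₀, hcs, hdom⟩

end Fermat.Agent.S26.Curves
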