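import Fermat.Agent.S26.Curves.Defs
import Fermat.Prelude.Def_GoodReductionJacobian_RelativeGroupLawKernel

/-!
# S26 / P8 CURVES : sums of curves in a group scheme (definitions for the S-leaves; P8-local, FROZEN for P8)

`addHom L x σ c ι` : for `K`-schemes `x : X → Spec K`, `c : C → Spec K` and `K`-morphisms `σ : X → A`, `ι : C → A`,
the `K`-morphism `X ×_K C → A`, `(a, b) ↦ σ a + ι b` (the group law of `A` applied to the two `X ×_K C`-valued
points `fst ≫ σ`, `snd ≫ ι`).

`CurveSum f L r x σ x₀` : `x : X → Spec K` is an `r`-fold product of integral curves, proper and smooth of relative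
dimension 1 over `K`; `σ : X → A` is the sum of `K`-morphisms from the factors; `x₀` is a `K`-point of `X` with
`σ(x₀) = e`.
-/

set_option autoImplicit false

universe u

open AlgebraicGeometry CategoryTheory CategoryTheory.Limits NeronModelInfra GoodReductionJacobian

namespace Fermat.Agent.S26.Curves

variable {K : Type u} [Field K] {A : Scheme.{u}} {f : A ⟶ Spec (CommRingCat.of K)}

/-- `(a, b) ↦ σ a + ι b : X ×_K C → A`. -/
noncomputable def addHom (L : RelativeGroupLaw K f) {X C : Scheme.{u}}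
    (x : X ⟶ Spec (CommRingCat.of K)) (σ : SchemeHomOver x f)
    (c : C ⟶ Spec (CommRingCat.of K)) (ι : SchemeHomOver c f) :
    SchemeHomOver (pullback.fst x c ≫ x) f :=
  L.mul (pullback.fst x c ≫ x)
    ⟨pullback.fst x c ≫ σ.1, by rw [Category.assoc, σ.2]⟩
    ⟨pullback.snd x c ≫ ι.1, by rw [Category.assoc, ι.2, pullback.condition]⟩

/-- The `K`-point `(x₀, c₀)` of `X ×_K C`. -/
noncomputable def pairPt {X C : Scheme.{u}}
    (x : X ⟶ Spec (CommRingCat.of K)) (c : C ⟶ Spec (CommRingCat.of K))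
    (x₀ : SchemeHomOver (𝟙 (Spec (CommRingCat.of K))) x)
    (c₀ : SchemeHomOver (𝟙 (Spec (CommRingCat.of K))) c) :
    SchemeHomOver (𝟙 (Spec (CommRingCat.of K))) (pullback.fst x c ≫ x) :=
  ⟨pullback.lift x₀.1 c₀.1 (by rw [x₀.2, c₀.2]), by rw [pullback.lift_fst_assoc, x₀.2]⟩

/-- `r`-fold sums of pointed smooth proper curves in `A`. -/
inductive CurveSum (f : A ⟶ Spec (CommRingCat.of K)) (L : RelativeGroupLaw K f) :
    ℕ → ∀ {X : Scheme.{u}} (x : X ⟶ Spec (CommRingCat.of K)), SchemeHomOver x f →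
      SchemeHomOver (𝟙 (Spec (CommRingCat.of K))) x → Prop
  | zero : CurveSum f L 0 (𝟙 (Spec (CommRingCat.of K))) (L.one (𝟙 _)) ⟨𝟙 _, Category.id_comp _⟩
  | succ {r : ℕ} {X : Scheme.{u}} {x : X ⟶ Spec (CommRingCat.of K)} {σ : SchemeHomOver x f}
      {x₀ : SchemeHomOver (𝟙 (Spec (CommRingCat.of K))) x} (h : CurveSum f L r x σ x₀)
      {C : Scheme.{u}} (c : C ⟶ Spec (CommRingCat.of K)) (hC : IsIntegral C) (hc : IsProper c)
      (hs : SmoothOfRelativeDimension 1 c) (ι : SchemeHomOver c f)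
      (c₀ : SchemeHomOver (𝟙 (Spec (CommRingCat.of K))) c)
      (hc₀ : c₀.1 ≫ ι.1 = (L.one (𝟙 (Spec (CommRingCat.of K)))).1) :
      CurveSum f L (r + 1) (pullback.fst x c ≫ x) (addHom L x σ c ι) (pairPt x c x₀ c₀)

end Fermat.Agent.S26.Curves
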